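import Fermat.Agent.S56.Br.H374.Tw
import Fermat.Agent.S56.H716.GWSpec

/-!
# Row S56 — BRIDGE: frames.  `BaseStatement` from a numerical inequality in `PT` vocabulary
(helper374)

* `exists_isDualFrame` : a dual frame `D` (plain twisted cocycles) representing ALL of
  `H¹_T(G_ℚ, ad⁰ρ̄(1))` (`PT` level-constant cohomology), `dim D = dim H¹`;
* `exists_selmer_space` : a space `X` of plain cocycles representing `Ш¹_{Smin}(ad⁰ρ̄)`
  (`PT.Sha1`), capturing all strict Selmer cocycles of `Q = ∅`;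
* `base_of_numeric` : `H716.Base` from
  `dim Ш¹_{Smin}(ad⁰) + ∑_{v ∈ Smin} dim H⁰(Gl v, ad⁰) + 1 ≤ dim H¹_{Smin}(ad⁰(1))`.
-/

set_option autoImplicit false
set_option linter.style.haveILetI false
set_option linter.unusedSectionVars false

noncomputable section

namespace Fermat.Agent.S56.Br

open Fermat.Agent.S56 Fermat.Agent.S56.H716 Fermat.Agent.S55.PT groupCohomology ExtCitation

variable {k : Type} [Field k] (ρbar : ResidualGaloisRep k)

section Tw

variable (p : ℕ) [Fact p.Prime] [CharP k p]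

/-- A dual frame representing all of `H¹_T(ad⁰ρ̄(1))`. -/
theorem exists_isDualFrame (T : Finset Nat.Primes)
    [Module.Finite k ((globalLevels T).H1 (adTw ρbar p))] :
    ∃ D : Submodule k (GQ → Module.End k ρbar.V), IsDualFrame ρbar p D ∧
      (∀ y ∈ D, ∀ q : Nat.Primes, q ∉ T → UnramAt ρbar y (q : ℕ)) ∧
      Module.finrank k D = Module.finrank k ((globalLevels T).H1 (adTw ρbar p)) := by
  obtain ⟨s, hs⟩ := ((globalLevels T).H1π (adTw ρbar p)).exists_rightInverse_of_surjective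
    (LinearMap.range_eq_top.2 ((globalLevels T).H1π_surjective (adTw ρbar p)))
  have hs' : ∀ x, (globalLevels T).H1π (adTw ρbar p) (s x) = x := fun x =>
    DFunLike.congr_fun hs x
  let φ : (globalLevels T).H1 (adTw ρbar p) →ₗ[k] (GQ → Module.End k ρbar.V) :=
    (toEndTw ρbar p).comp (((globalLevels T).Z1 (adTw ρbar p)).subtype.comp s)
  have hφ : Function.Injective φ := by
    intro x y hxy
    have h1 : (s x : GQ → adTw ρbar p) = s y := toEndTw_injective ρbar p hxy
    have h2 : s x = s y := Subtype.ext h1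
    rw [← hs' x, ← hs' y, h2]
  refine ⟨LinearMap.range φ, ⟨?_, inferInstance, ?_⟩, ?_, LinearMap.finrank_range_of_inj hφ⟩
  · rintro _ ⟨x, rfl⟩
    exact ((mem_Z1_global_tw_iff ρbar p T _).1 (s x).2).1
  · rintro _ ⟨x, rfl⟩ hcob
    have h1 : ((s x : (globalLevels T).Z1 (adTw ρbar p)) : GQ → adTw ρbar p)
        ∈ LevelSys.B1 (adTw ρbar p) := (isTwCoboundary_toEndTw_iff ρbar p _).1 hcob
    have h2 : x = 0 := by
      rw [← hs' x]
      exact ((globalLevels T).H1π_eq_zero_iff (adTw ρbar p) (s x)).2 h1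
    rw [h2, map_zero]
  · rintro _ ⟨x, rfl⟩
    exact ((mem_Z1_global_tw_iff ρbar p T _).1 (s x).2).2

end Tw

/-! ### Strict Selmer classes of `Q = ∅` -/

/-- Representatives: the class of `f` lies in `Ш¹` iff all local restrictions are coboundaries. -/
theorem H1π_mem_Sha1_iff' (T : Finset Nat.Primes) (c : ↥((globalLevels T).Z1 (adRep ρbar))) :
    (globalLevels T).H1π (adRep ρbar) c ∈ Sha1 (hrl T) (adRep ρbar) ↔
      ∀ v : Nat.Primes, v ∈ T →
        ((c : GQ → adRep ρbar) ∘ rl v : Gl v → adRep ρbar)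
          ∈ LevelSys.B1 (Rep.res (rl v) (adRep ρbar)) := by
  rw [LinearMap.mem_ker]
  constructor
  · intro h v hv
    have h1 := congrFun h ⟨v, hv⟩
    rw [loc1_apply, resH1_mk] at h1
    exact ((localLevels v).H1π_eq_zero_iff _ _).1 h1
  · intro h
    funext v
    rw [loc1_apply, resH1_mk]
    exact ((localLevels v.1).H1π_eq_zero_iff _ _).2 (h v.1 v.2)

/-- A space `X` of plain cocycles representing `Ш¹_{Smin}(ad⁰ρ̄)`: it captures every strict
Selmer cocycle of `Q = ∅`, and `dim X = dim Ш¹`. -/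
theorem exists_selmer_space (h2 : (2 : k) ≠ 0) (Smin : Finset ℕ)
    (Pl : ℕ → ValuationSubring Qb) (hPl : ∀ v ∈ Smin, (Pl v).LiesOverPrime v)
    (hS : ∀ v ∈ Smin, v.Prime)
    [Module.Finite k ↥(Sha1 (hrl (primesOf Smin)) (adRep ρbar))] :
    ∃ X : Submodule k (GQ → Module.End k ρbar.V), Module.Finite k X ∧
      (∀ c, IsSelCocycle ρbar Pl (fun _ => ⊥) Smin ∅ c →
        ∃ t ∈ X, IsAdCoboundary ρbar (c - t)) ∧
      Module.finrank k X = Module.finrank k ↥(Sha1 (hrl (primesOf Smin)) (adRep ρbar)) := by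
  set T := primesOf Smin with hT
  obtain ⟨s, hs⟩ := ((globalLevels T).H1π (adRep ρbar)).exists_rightInverse_of_surjective
    (LinearMap.range_eq_top.2 ((globalLevels T).H1π_surjective (adRep ρbar)))
  have hs' : ∀ x, (globalLevels T).H1π (adRep ρbar) (s x) = x := fun x =>
    DFunLike.congr_fun hs x
  let φ : ↥(Sha1 (hrl T) (adRep ρbar)) →ₗ[k] (GQ → Module.End k ρbar.V) :=
    (toEnd ρbar).comp ((((globalLevels T).Z1 (adRep ρbar)).subtype.comp s).comp
      (Sha1 (hrl T) (adRep ρbar)).subtype)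
  have hφ : Function.Injective φ := by
    intro x y hxy
    have h1 : (s x.1 : GQ → adRep ρbar) = s y.1 := toEnd_injective ρbar hxy
    have h3 : s x.1 = s y.1 := Subtype.ext h1
    apply Subtype.ext
    rw [← hs' x.1, ← hs' y.1, h3]
  refine ⟨LinearMap.range φ, inferInstance, ?_, LinearMap.finrank_range_of_inj hφ⟩
  intro c hc
  -- `c = toEnd f`
  let f : GQ → adRep ρbar := ofEnd ρbar c hc.cocycle.trace_eq_zero
  have hcf : toEnd ρbar f = c := rfl
  have hsel := (isSelCocycle_bot_iff ρbar h2 Smin ∅ Pl hPl hS f).1 (hcf ▸ hc)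
  rw [Finset.union_empty] at hsel
  let z : ↥((globalLevels T).Z1 (adRep ρbar)) := ⟨f, hsel.1⟩
  have hx : (globalLevels T).H1π (adRep ρbar) z ∈ Sha1 (hrl T) (adRep ρbar) :=
    (H1π_mem_Sha1_iff' ρbar T z).2 (fun v hv => hsel.2 v (mem_primesOf.1 hv))
  refine ⟨φ ⟨_, hx⟩, ⟨_, rfl⟩, ?_⟩
  have h1 : (globalLevels T).H1π (adRep ρbar) (z - s ((globalLevels T).H1π (adRep ρbar) z)) = 0 := by
    rw [((globalLevels T).H1π (adRep ρbar)).map_sub z (s _), hs', sub_self]
  have h3 := ((globalLevels T).H1π_eq_zero_iff (adRep ρbar) _).1 h1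
  have h4 := (isAdCoboundary_toEnd_iff ρbar h2 _).2 h3
  have h5 : toEnd ρbar ((z - s ((globalLevels T).H1π (adRep ρbar) z) :
      ↥((globalLevels T).Z1 (adRep ρbar))) : GQ → adRep ρbar) = c - φ ⟨_, hx⟩ := by
    rw [Submodule.coe_sub, map_sub]
    rfl
  rw [h5] at h4
  exact h4

/-! ### `Base` from a numerical inequality -/

/-- The standard places: the Prelude's place over `v` when `v` is prime. -/
def stdPl (v : ℕ) : ValuationSubring Qb :=
  if h : v.Prime then primeLocalPlace ⟨v, h⟩ else ⊤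

theorem stdPl_coe (v : Nat.Primes) : stdPl (v : ℕ) = primeLocalPlace v := by
  unfold stdPl
  rw [dif_pos v.2]
  rfl

theorem stdPl_liesOver {v : ℕ} (hv : v.Prime) : (stdPl v).LiesOverPrime v := by
  have h1 := primeLocalPlace_liesOver ⟨v, hv⟩
  have h2 := stdPl_coe ⟨v, hv⟩
  rw [← h2] at h1
  exact h1

theorem finrank_adInv_stdPl (v : Nat.Primes) :
    Module.finrank k (adInv ρbar ((stdPl (v : ℕ)).decompositionSubgroup ℚ))
      = Module.finrank k ↥(LevelSys.H0 (Rep.res (rl v) (adRep ρbar))) := by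
  rw [stdPl_coe]
  exact (adInvLocalEquiv ρbar v).finrank_eq

theorem sum_finrank_adInv_stdPl (Smin : Finset ℕ) (hS : ∀ v ∈ Smin, v.Prime) :
    ∑ v ∈ Smin, Module.finrank k (adInv ρbar ((stdPl v).decompositionSubgroup ℚ))
      = ∑ v ∈ primesOf Smin, Module.finrank k ↥(LevelSys.H0 (Rep.res (rl v) (adRep ρbar))) := by
  rw [← Finset.sum_subtype_of_mem
    (fun v => Module.finrank k (adInv ρbar ((stdPl v).decompositionSubgroup ℚ))) hS]
  exact Finset.sum_congr rfl (fun v _ => finrank_adInv_stdPl ρbar v)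

/-- **BASE from `PT` numerics.**  `H716.Base` follows from the inequality
`dim Ш¹_{Smin}(ad⁰ρ̄) + ∑_{v ∈ Smin} dim H⁰(Gl v, ad⁰ρ̄) + 1 ≤ dim H¹_{Smin}(ad⁰ρ̄(1))`
between dimensions of `PT` level-constant cohomology groups over `k`. -/
theorem base_of_numeric (𝒪 : Type) [CommRing 𝒪] [IsDomain 𝒪] [IsDiscreteValuationRing 𝒪]
    (p : ℕ) [Fact p.Prime] [CharP (IsLocalRing.ResidueField 𝒪) p]
    (ρbar : ResidualGaloisRep (IsLocalRing.ResidueField 𝒪)) (Smin : Finset ℕ)
    (h2 : (2 : IsLocalRing.ResidueField 𝒪) ≠ 0) (hS : ∀ v ∈ Smin, v.Prime)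
    [Module.Finite (IsLocalRing.ResidueField 𝒪)
      ((globalLevels (primesOf Smin)).H1 (adTw ρbar p))]
    [Module.Finite (IsLocalRing.ResidueField 𝒪) ↥(Sha1 (hrl (primesOf Smin)) (adRep ρbar))]
    (hnum : Module.finrank (IsLocalRing.ResidueField 𝒪)
          ↥(Sha1 (hrl (primesOf Smin)) (adRep ρbar))
        + ∑ v ∈ primesOf Smin, Module.finrank (IsLocalRing.ResidueField 𝒪)
            ↥(LevelSys.H0 (Rep.res (rl v) (adRep ρbar))) + 1
        ≤ Module.finrank (IsLocalRing.ResidueField 𝒪)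
            ((globalLevels (primesOf Smin)).H1 (adTw ρbar p))) :
    Base 𝒪 p ρbar Smin := by
  obtain ⟨D, hD, hDur, hDrank⟩ := exists_isDualFrame ρbar p (primesOf Smin)
  obtain ⟨X, hXfin, hX, hXrank⟩ := exists_selmer_space ρbar h2 Smin stdPl
    (fun v hv => stdPl_liesOver (hS v hv)) hS
  refine ⟨stdPl, fun v hv => stdPl_liesOver (hS v hv), D, X, hD, ?_, hXfin, hX, ?_⟩
  · intro y hy q hq hqS
    exact hDur y hy ⟨q, hq⟩ (fun h => hqS (mem_primesOf.1 h))
  · rw [hXrank, hDrank, sum_finrank_adInv_stdPl ρbar Smin hS]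
    exact hnum

end Fermat.Agent.S56.Br

end
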