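import Fermat.Agent.S56.Br.H374.TrForm
import Fermat.Agent.S56.Br.H374.Frames
import Fermat.Agent.S56.Euler.Big.Spec
import Fermat.Agent.S56.H666.Inv0
import Fermat.Agent.S56.H596.Odd
import Fermat.Agent.S55.PT.FinGlobH593
import Fermat.Agent.S55.Bridge.DualTwist

/-!
# Row S56 / wall BASE — BRIDGE-BASE: `Euler.BridgeBaseSpec`                     (helper374)

    theorem bridgeBase : Euler.BridgeBaseSpec

The dictionary between the plain-function language of `H716.Base` and the S55 `PT` vocabulary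
for `N = ad⁰ρ̄(1)` as an `F_p`-representation (`adTwFp ρbar p`), `d = [k : F_p]`
(`fpDeg k p`), `S₀ = Smin`, `Pl = stdPl`:

* INV0 (`H666.Inv0`), ODD (`H596.Odd`);
* B1, B3, B4 (`Br/H374/{Ad,Tw,Frames}`), B2 (`Br/H374/TrForm`), B5 (`Br/H374/Fp`);
* finiteness of `H¹_S` (`S55.PT.H593.finGlob`).
-/

set_option autoImplicit false
set_option linter.style.haveILetI false
set_option linter.unusedSectionVars false

noncomputable section

namespace Fermat.Agent.S56.Br

open Fermat.Agent.S56 Fermat.Agent.S56.H716 Fermat.Agent.S55.PT groupCohomology ExtCitation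

section General

variable {k : Type} [Field k] (ρbar : ResidualGaloisRep k) (p : ℕ) [Fact p.Prime] [CharP k p]

instance instFiniteAdTw : Module.Finite k (adTw ρbar p).V :=
  inferInstanceAs (Module.Finite k ↥(End0 ρbar))

instance instFiniteAdRep : Module.Finite k (adRep ρbar).V :=
  inferInstanceAs (Module.Finite k ↥(End0 ρbar))

/-! ### The level -/

/-- Elements acting trivially on `V` and on `μ_p` act trivially on `ad⁰ρ̄(1)`. -/
theorem adTwFp_ρ_eq_one {u : GQ} (h1 : ρbar.ρ u = 1) (h2 : cycloChar p u = 1) :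
    (adTwFp ρbar p).ρ u = 1 := by
  apply LinearMap.ext
  intro m
  apply valFp_injective
  have h3 : ρbar.ρ u⁻¹ = 1 := by
    have h := rho_inv_mul ρbar u
    rwa [h1, mul_one] at h
  rw [valFp_ρ, cycK_coe, h1, h2, h3, Units.val_one, map_one, one_smul, one_mul, mul_one]
  rfl

/-- A level of `T ∋ p` acting trivially on `V` and on `μ_p`, if `ρ̄` is unramified outside
`T`. -/
theorem exists_level_rho (T : Finset Nat.Primes) (hpT : pPrime p ∈ T)
    (hur : ∀ q : Nat.Primes, q ∉ T → ρbar.IsUnramifiedAt (q : ℕ)) :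
    ∃ U ∈ (globalLevels T).levels, (∀ u ∈ U, ρbar.ρ u = 1) ∧ ∀ u ∈ U, cycloChar p u = 1 := by
  obtain ⟨L, hLfin, hL⟩ := ρbar.factorsThroughFiniteLevel
  haveI := hLfin
  haveI := Fermat.Agent.S55.Bridge.cycloLevel_finiteDimensional p
  have hsupfin : FiniteDimensional ℚ ↥(L ⊔ Fermat.Agent.S55.Bridge.cycloLevel p) :=
    IntermediateField.finiteDimensional_sup L (Fermat.Agent.S55.Bridge.cycloLevel p)
  obtain ⟨F, hF, hfix, -⟩ := Fermat.Agent.S55.Bridge.exists_level_of_subgroup T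
    (MonoidHom.ker ρbar.ρ ⊓ MonoidHom.ker (cycloChar p))
    (L ⊔ Fermat.Agent.S55.Bridge.cycloLevel p) hsupfin
    (fun s hs => by
      rw [IntermediateField.fixingSubgroup_sup] at hs
      exact ⟨MonoidHom.mem_ker.2 (hL s (fun x hx =>
          (IntermediateField.mem_fixingSubgroup_iff L s).1 hs.1 x hx)),
        MonoidHom.mem_ker.2
          (Fermat.Agent.S55.Bridge.cycloChar_eq_one_of_mem_fixingSubgroup p s hs.2)⟩)
    (fun q hq A hA g hg => by
      have hqp : (q : ℕ) ≠ p := by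
        intro h
        apply hq
        have : q = pPrime p := Subtype.ext h
        rw [this]
        exact hpT
      exact ⟨MonoidHom.mem_ker.2 (hur q hq A hA g hg),
        MonoidHom.mem_ker.2
          (Fermat.Agent.S55.Bridge.cycloChar_eq_one_of_mem_inertia p q.2 hqp A hA g hg)⟩)
  refine ⟨F.fixingSubgroup, ⟨F, hF, rfl⟩, fun u hu => ?_, fun u hu => ?_⟩
  · rw [hfix] at hu
    exact MonoidHom.mem_ker.1 hu.1
  · rw [hfix] at hu
    exact MonoidHom.mem_ker.1 hu.2

variable {ρbar p} in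
theorem isUSmooth_adTwFp {T : Finset Nat.Primes} {U : Subgroup GQ}
    (hU : U ∈ (globalLevels T).levels) (hρ : ∀ u ∈ U, ρbar.ρ u = 1)
    (hχ : ∀ u ∈ U, cycloChar p u = 1) : (globalLevels T).IsUSmooth (adTwFp ρbar p) :=
  ⟨U, hU, fun s hs a => by rw [adTwFp_ρ_eq_one ρbar p (hρ s hs) (hχ s hs)]; rfl⟩

variable {ρbar p} in
theorem isUSmooth_tdual_adTwFp {T : Finset Nat.Primes} {U : Subgroup GQ}
    (hU : U ∈ (globalLevels T).levels) (hρ : ∀ u ∈ U, ρbar.ρ u = 1)
    (hχ : ∀ u ∈ U, cycloChar p u = 1) :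
    (globalLevels T).IsUSmooth (tdual p (adTwFp ρbar p)) :=
  ⟨U, hU, fun s hs a => by
    rw [Fermat.Agent.S55.Bridge.dualTwist_ρ_eq_one (adTwFp ρbar p) (cycloChar p) s
      (adTwFp_ρ_eq_one ρbar p (hρ s hs) (hχ s hs)) (hχ s hs)]
    rfl⟩

/-! ### INV0 -/

/-- `H⁰(G_ℚ, ad⁰ρ̄(1)) = 0` in `PT` vocabulary. -/
theorem finrank_H0_adTwFp
    (hinv : ∀ m : Module.End k ρbar.V, LinearMap.trace k ρbar.V m = 0 →
      (∀ (σ : GQ) (a : ℕ), IsCycExp p σ a → (a : k) • (ρbar.ρ σ * m * ρbar.ρ σ⁻¹) = m) →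
      m = 0) :
    Module.finrank (ZMod p) ↥(LevelSys.H0 (adTwFp ρbar p)) = 0 := by
  rw [(resFpAEq p (adTw ρbar p)).finrank_H0]
  have hsub : Subsingleton ↥(LevelSys.H0 (adTw ρbar p)) := by
    refine ⟨fun x y => ?_⟩
    have key : ∀ z : ↥(LevelSys.H0 (adTw ρbar p)), z = 0 := by
      intro z
      apply Subtype.ext
      apply valTw_injective
      rw [Submodule.coe_zero, map_zero]
      apply hinv _ (trace_valTw ρbar p z.1)
      intro σ a ha
      have h1 := congrArg (valTw ρbar p) (z.2 σ)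
      rw [valTw_ρ] at h1
      rw [natCast_eq_cycK k ha]
      exact h1
    rw [key x, key y]
  rw [Module.finrank_zero_of_subsingleton, mul_zero]

/-- `H⁰(G_ℚ, ad⁰ρ̄) = 0`, i.e. `Hom_G(ad⁰ρ̄(1), μ_p) = 0`, in `PT` vocabulary. -/
theorem finrank_charHom_adTwFp [Finite k] (h2 : (2 : k) ≠ 0) (hinv : adInv ρbar ⊤ = ⊥) :
    Module.finrank (ZMod p) ↥(charHom (cycloChar p) (adTwFp ρbar p)) = 0 := by
  have h1 : Module.finrank (ZMod p) ↥(charHom (cycloChar p) (adTwFp ρbar p))
      = Module.finrank (ZMod p) ↥(LevelSys.H0 (tdual p (adTwFp ρbar p))) :=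
    congrArg (fun X : Submodule (ZMod p) (Module.Dual (ZMod p) (adTwFp ρbar p).V) =>
      Module.finrank (ZMod p) ↥X) (H0_dualTwist_eq (cycloChar p) (adTwFp ρbar p)).symm
  rw [h1, (tdualAEq ρbar p h2).finrank_H0]
  have hsub : Subsingleton ↥(LevelSys.H0 (adRep ρbar)) := by
    refine ⟨fun x y => ?_⟩
    have key : ∀ z : ↥(LevelSys.H0 (adRep ρbar)), z = 0 := by
      intro z
      apply Subtype.ext
      apply val_injective
      rw [Submodule.coe_zero, map_zero]
      have hz : val ρbar z.1 ∈ adInv ρbar ⊤ :=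
        (mem_adInv_iff ρbar ⊤ _).2 ⟨z.1, rfl, fun σ _ => z.2 σ⟩
      rw [hinv] at hz
      exact (Submodule.mem_bot k).1 hz
    rw [key x, key y]
  rw [Module.finrank_zero_of_subsingleton, mul_zero]

/-! ### ODD -/

/-- The `(-1)`-eigenspace of an odd involution `c` on `ad⁰ρ̄(1)` has `F_p`-dimension
`[k : F_p]`. -/
theorem finrank_minusPart_adTwFp (c : GQ) (hc : ((cycK k p c : kˣ) : k) = -1)
    (hcc : ρbar.ρ c * ρbar.ρ c = 1) (htr : LinearMap.trace k ρbar.V (ρbar.ρ c) = 0)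
    (hcomm : ∀ m : Module.End k ρbar.V, LinearMap.trace k ρbar.V m = 0 →
      ρbar.ρ c * m = m * ρbar.ρ c → ∃ r : k, m = r • ρbar.ρ c) :
    Module.finrank (ZMod p) ↥(Fermat.Agent.S56.H419.minusPart c (adTwFp ρbar p))
      = fpDeg k p := by
  have hne : ρbar.ρ c ≠ 0 := by
    intro h0
    rw [h0, mul_zero] at hcc
    haveI : Nontrivial ρbar.V := Module.nontrivial_of_finrank_pos (R := k) (by
      rw [ρbar.finrank_eq]; norm_num)
    exact zero_ne_one hcc
  have hinv : ρbar.ρ c⁻¹ = ρbar.ρ c := by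
    have h := rho_inv_mul ρbar c
    calc ρbar.ρ c⁻¹ = ρbar.ρ c⁻¹ * (ρbar.ρ c * ρbar.ρ c) := by rw [hcc, mul_one]
      _ = ρbar.ρ c := by rw [← mul_assoc, h, one_mul]
  -- membership in the minus part
  have hmem : ∀ x : (adTwFp ρbar p).V,
      x ∈ Fermat.Agent.S56.H419.minusPart c (adTwFp ρbar p) ↔
        ρbar.ρ c * valFp ρbar p x = valFp ρbar p x * ρbar.ρ c := by
    intro x
    rw [Fermat.Agent.S56.H419.mem_minusPart]
    constructor
    · intro h
      have h1 := congrArg (valFp ρbar p) h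
      rw [valFp_ρ, hc, map_neg, neg_smul, one_smul, neg_inj, hinv] at h1
      calc ρbar.ρ c * valFp ρbar p x
          = ρbar.ρ c * valFp ρbar p x * (ρbar.ρ c * ρbar.ρ c) := by rw [hcc, mul_one]
        _ = (ρbar.ρ c * valFp ρbar p x * ρbar.ρ c) * ρbar.ρ c := by rw [mul_assoc _ _ (ρbar.ρ c)]
        _ = valFp ρbar p x * ρbar.ρ c := by rw [h1]
    · intro h
      apply valFp_injective
      rw [valFp_ρ, hc, map_neg, neg_smul, one_smul, neg_inj, hinv, h, mul_assoc, hcc, mul_one]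
  -- the additive bijection onto the line `k · ρ̄(c)`
  let f : ↥(Fermat.Agent.S56.H419.minusPart c (adTwFp ρbar p)) →+
      ↥(Submodule.span k {ρbar.ρ c}) :=
    { toFun := fun x => ⟨valFp ρbar p x.1, by
        obtain ⟨r, hr⟩ := hcomm _ (trace_valFp ρbar p x.1) ((hmem x.1).1 x.2)
        rw [hr]
        exact Submodule.smul_mem _ _ (Submodule.mem_span_singleton_self _)⟩
      map_zero' := Subtype.ext (map_zero (valFp ρbar p))
      map_add' := fun x y => Subtype.ext (map_add (valFp ρbar p) x.1 y.1) }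
  have hf : Function.Bijective f := by
    constructor
    · intro x y hxy
      have h1 : valFp ρbar p x.1 = valFp ρbar p y.1 :=
        congrArg (fun z : ↥(Submodule.span k {ρbar.ρ c}) => (z : Module.End k ρbar.V)) hxy
      exact Subtype.ext (valFp_injective ρbar p h1)
    · rintro ⟨y, hy⟩
      obtain ⟨r, rfl⟩ := Submodule.mem_span_singleton.1 hy
      have hytr : LinearMap.trace k ρbar.V (r • ρbar.ρ c) = 0 := by
        rw [map_smul, htr, smul_zero]
      refine ⟨⟨mkFp ρbar p (r • ρbar.ρ c) hytr, (hmem _).2 ?_⟩, Subtype.ext rfl⟩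
      rw [valFp_mkFp, mul_smul_comm, smul_mul_assoc]
  rw [finrank_eq_of_addEquiv (k := k) p (AddEquiv.ofBijective f hf),
    finrank_span_singleton hne, mul_one]

/-! ### Local invariants -/

/-- `Hom_{G_v}(ad⁰ρ̄(1), μ_p) = H⁰(G_v, ad⁰ρ̄)`. -/
theorem finrank_charHom_loc [Finite k] (h2 : (2 : k) ≠ 0) (v : Nat.Primes) :
    Module.finrank (ZMod p) ↥(charHom (cycloLoc p v) (Rep.res (rl v) (adTwFp ρbar p)))
      = fpDeg k p *
        Module.finrank k ↥(adInv ρbar ((stdPl (v : ℕ)).decompositionSubgroup ℚ)) := by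
  have h1 : Module.finrank (ZMod p) ↥(charHom (cycloLoc p v) (Rep.res (rl v) (adTwFp ρbar p)))
      = Module.finrank (ZMod p)
          ↥(LevelSys.H0 ((Rep.res (rl v) (adTwFp ρbar p)).dualTwist (cycloLoc p v))) :=
    congrArg (fun X : Submodule (ZMod p) (Module.Dual (ZMod p) (adTwFp ρbar p).V) =>
      Module.finrank (ZMod p) ↥X)
      (H0_dualTwist_eq (cycloLoc p v) (Rep.res (rl v) (adTwFp ρbar p))).symm
  rw [h1, (tdualLocAEq ρbar p h2 v).finrank_H0, finrank_adInv_stdPl]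

/-! ### Frames -/

theorem image_coe_primesOf (T : Finset Nat.Primes) :
    primesOf (T.image (fun v : Nat.Primes => (v : ℕ))) = T := by
  ext q
  rw [mem_primesOf, Finset.mem_image]
  constructor
  · rintro ⟨w, hw, hwq⟩
    have : w = q := Subtype.ext hwq
    rwa [← this]
  · intro hq
    exact ⟨q, hq, rfl⟩

/-- The dual frame of all classes, with its `F_p`-dimension. -/
theorem exists_frame_Fp [Finite k] (T : Finset Nat.Primes)
    (hsm : (globalLevels T).IsUSmooth (adTwFp ρbar p)) :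
    ∃ D : Submodule k (GQ → Module.End k ρbar.V), IsDualFrame ρbar p D ∧
      (∀ y ∈ D, ∀ q : ℕ, q.Prime → q ∉ T.image (fun v : Nat.Primes => (v : ℕ)) →
        UnramAt ρbar y q) ∧
      Module.finrank (ZMod p) ((globalLevels T).H1 (adTwFp ρbar p))
        ≤ fpDeg k p * Module.finrank k ↥D := by
  haveI : FiniteDimensional (ZMod p) (adTwFp ρbar p) := finiteDimensional_resFp p _
  haveI : Module.Finite (ZMod p) ((globalLevels T).H1 (adTwFp ρbar p)) :=
    Fermat.Agent.S55.PT.H593.finGlob p T (adTwFp ρbar p) inferInstance hsm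
  haveI : Module.Finite k ((globalLevels T).H1 (adTw ρbar p)) :=
    (resFpAEq p (adTw ρbar p)).finite_H1 (globalLevels T)
  obtain ⟨D, hD, hDur, hDrank⟩ := exists_isDualFrame ρbar p T
  refine ⟨D, hD, fun y hy q hq hqT => ?_, ?_⟩
  · exact hDur y hy ⟨q, hq⟩ (fun h => hqT (Finset.mem_image.2 ⟨⟨q, hq⟩, h, rfl⟩))
  · rw [hDrank, (resFpAEq p (adTw ρbar p)).finrank_H1 (globalLevels T)]

/-- `exists_selmer_space`, for a set of primes given as a `Finset Nat.Primes`. -/
theorem exists_selmer_space_primes (h2 : (2 : k) ≠ 0) (Smin : Finset ℕ)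
    (hS : ∀ v ∈ Smin, v.Prime) (T : Finset Nat.Primes) (hT : primesOf Smin = T)
    [Module.Finite k ↥(Sha1 (hrl T) (adRep ρbar))] :
    ∃ X : Submodule k (GQ → Module.End k ρbar.V), Module.Finite k X ∧
      (∀ c, IsSelCocycle ρbar stdPl (fun _ => ⊥) Smin ∅ c →
        ∃ t ∈ X, IsAdCoboundary ρbar (c - t)) ∧
      Module.finrank k X = Module.finrank k ↥(Sha1 (hrl T) (adRep ρbar)) := by
  subst hT
  exact exists_selmer_space ρbar h2 Smin stdPl (fun v hv => stdPl_liesOver (hS v hv)) hS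

/-- Representatives of `Ш¹_T(ad⁰ρ̄)`, with the `F_p`-dimension of `Ш¹_T((ad⁰ρ̄(1))′)`. -/
theorem exists_selmer_Fp [Finite k] (h2 : (2 : k) ≠ 0) (T : Finset Nat.Primes)
    (hsm' : (globalLevels T).IsUSmooth (tdual p (adTwFp ρbar p))) :
    ∃ X : Submodule k (GQ → Module.End k ρbar.V), Module.Finite k X ∧
      (∀ c, IsSelCocycle ρbar stdPl (fun _ => ⊥)
          (T.image (fun v : Nat.Primes => (v : ℕ))) ∅ c →
        ∃ t ∈ X, IsAdCoboundary ρbar (c - t)) ∧
      fpDeg k p * Module.finrank k ↥X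
        ≤ Module.finrank (ZMod p) ↥(Sha1 (hrl T) (tdual p (adTwFp ρbar p))) := by
  haveI : FiniteDimensional (ZMod p) (adTwFp ρbar p) := finiteDimensional_resFp p _
  haveI : FiniteDimensional (ZMod p) (tdual p (adTwFp ρbar p)) :=
    inferInstanceAs (FiniteDimensional (ZMod p) (Module.Dual (ZMod p) (adTwFp ρbar p).V))
  haveI : Module.Finite (ZMod p) ((globalLevels T).H1 (tdual p (adTwFp ρbar p))) :=
    Fermat.Agent.S55.PT.H593.finGlob p T (tdual p (adTwFp ρbar p)) inferInstance hsm'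
  haveI : Module.Finite k ((globalLevels T).H1 (adRep ρbar)) :=
    (tdualAEq ρbar p h2).finite_H1 (globalLevels T)
  obtain ⟨X, hXfin, hX, hXrank⟩ := exists_selmer_space_primes ρbar h2
    (T.image (fun v : Nat.Primes => (v : ℕ)))
    (fun v hv => by
      obtain ⟨w, -, rfl⟩ := Finset.mem_image.1 hv
      exact w.2) T (image_coe_primesOf T)
  refine ⟨X, hXfin, hX, ?_⟩
  rw [hXrank, (tdualAEq ρbar p h2).finrank_Sha1 (hrl T)]

end General

/-! ### BRIDGE-BASE -/

/-- **BRIDGE-BASE** (`Euler/Big/Spec.lean`, frozen by helper366): the dictionary between the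
plain-function language of `H716.Base` and the `PT` vocabulary for `N = ad⁰ρ̄(1)` over `F_p`. -/
theorem bridgeBase : Fermat.Agent.S56.Euler.BridgeBaseSpec := by
  intro 𝒪 _ _ _ _ _ p _ ρbar S Smin hyp
  haveI : CharP (IsLocalRing.ResidueField 𝒪) p :=
    (CharP.charP_iff_prime_eq_zero hyp.hp).2 (Fermat.Agent.S56.H596.natCast_p_eq_zero hyp)
  have h2 : (2 : IsLocalRing.ResidueField 𝒪) ≠ 0 := Fermat.Agent.S56.H596.two_ne_zero_of_hyp hyp
  have hpS₀ : pPrime p ∈ primesOf Smin := mem_primesOf.2 hyp.hpSmin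
  have hur : ∀ q : Nat.Primes, q ∉ primesOf Smin → ρbar.IsUnramifiedAt (q : ℕ) := by
    intro q hq
    have hqS : (q : ℕ) ∉ Smin := fun h => hq (mem_primesOf.2 h)
    have hqp : (q : ℕ) ≠ p := fun h => hqS (h ▸ hyp.hpSmin)
    by_contra hcon
    exact hqS ((hyp.hmin q q.2 hqp).2 hcon)
  obtain ⟨U, hU, hρ, hχ⟩ := exists_level_rho ρbar p (primesOf Smin) hpS₀ hur
  refine ⟨primesOf Smin, U, adTwFp ρbar p, stdPl, fpDeg (IsLocalRing.ResidueField 𝒪) p, hpS₀,
    ?_, hU, finiteDimensional_resFp p _, ?_, fun v hv => stdPl_liesOver hv,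
    fpDeg_pos (IsLocalRing.ResidueField 𝒪) p, ?_, ?_, ?_, ?_⟩
  · intro q hq
    exact ⟨hyp.hS q (hyp.hSmin hq), mem_primesOf.2 hq⟩
  · intro u hu
    exact adTwFp_ρ_eq_one ρbar p (hρ u hu) (hχ u hu)
  · exact finrank_H0_adTwFp ρbar p
      (fun m htr hinv => Fermat.Agent.S56.H666.inv0_twisted hyp m htr hinv)
  · exact finrank_charHom_adTwFp ρbar p h2 (Fermat.Agent.S56.H666.adInv_top_eq_bot hyp)
  · apply finrank_minusPart_adTwFp ρbar p complexConjugation
    · rw [← natCast_eq_cycK (IsLocalRing.ResidueField 𝒪)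
        (Fermat.Agent.S56.H596.isCycExp_complexConjugation p hyp.hp.ne_zero),
        Nat.cast_sub hyp.hp.one_le, CharP.cast_eq_zero, Nat.cast_one, zero_sub]
    · exact Fermat.Agent.S56.H596.rho_complexConjugation_sq ρbar
    · exact Fermat.Agent.S56.H596.trace_rho_complexConjugation hyp
    · intro m htr hcomm
      exact ⟨_, Fermat.Agent.S56.H596.eq_smul_of_commute_complexConjugation hyp m htr hcomm⟩
  · intro S' hS'
    have hU' : U ∈ (globalLevels S').levels := by
      obtain ⟨F, hF, rfl⟩ := hU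
      exact ⟨F, hF.mono hS', rfl⟩
    exact ⟨fun v => finrank_charHom_loc ρbar p h2 v.1,
      exists_frame_Fp ρbar p S' (isUSmooth_adTwFp hU' hρ hχ),
      exists_selmer_Fp ρbar p h2 S' (isUSmooth_tdual_adTwFp hU' hρ hχ)⟩

end Fermat.Agent.S56.Br

end
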