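import Fermat.Agent.S56.H716.SBDefs
import Fermat.Agent.S55.PT.Setup
import Fermat.Agent.S55.Bridge.Level
import Fermat.Agent.S55.Bridge.DecompLift
import Fermat.Agent.Lib.Cheb.H476.FrobConj

/-!
# Row S56 — BRIDGE (B1, B4): plain ad⁰-cocycles ⟷ level-constant cocycles of `adRep`  (helper374)

`adRep ρbar : Rep k G_ℚ` is the adjoint representation on the trace-zero endomorphisms of
`V = ρbar.V`.  The plain-function language of layers 0–3 (`IsAdCocycle`, `UnramAt`,
`IsAdCoboundary`) is translated into the vocabulary of the S55 `PT` layer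
(`(globalLevels T).Z1`, `B1`, ...).

* `toEnd`                     : `(G_ℚ → adRep) →ₗ (G_ℚ → End V)` (injective);
* `mem_Z1_global_iff` (B1+B4) : `f ∈ (globalLevels T).Z1 (adRep ρbar)` iff `toEnd f` is an
  `IsAdCocycle` which is `UnramAt` every prime outside `Σ`;
* `isAdCoboundary_toEnd_iff`  : `IsAdCoboundary (toEnd f) ↔ f ∈ B1 (adRep ρbar)` (char `≠ 2`).
-/

set_option autoImplicit false
set_option linter.style.haveILetI false
set_option linter.unusedSectionVars false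

noncomputable section

namespace Fermat.Agent.S56.Br

open Fermat.Agent.S56 Fermat.Agent.S56.H716 Fermat.Agent.S55.PT groupCohomology

variable {k : Type} [Field k] (ρbar : ResidualGaloisRep k)

/-- The trace-zero endomorphisms of `V`. -/
def End0 : Submodule k (Module.End k ρbar.V) := LinearMap.ker (LinearMap.trace k ρbar.V)

variable {ρbar} in
theorem mem_End0 {m : Module.End k ρbar.V} : m ∈ End0 ρbar ↔ LinearMap.trace k ρbar.V m = 0 :=
  LinearMap.mem_ker

/-- `Ad ρ̄(σ)` on `End V`. -/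
def adEnd (σ : GQ) : Module.End k ρbar.V →ₗ[k] Module.End k ρbar.V where
  toFun m := ρbar.ρ σ * m * ρbar.ρ σ⁻¹
  map_add' a b := by rw [mul_add, add_mul]
  map_smul' r a := by rw [mul_smul_comm, smul_mul_assoc, RingHom.id_apply]

@[simp] theorem adEnd_apply (σ : GQ) (m : Module.End k ρbar.V) :
    adEnd ρbar σ m = ρbar.ρ σ * m * ρbar.ρ σ⁻¹ := rfl

theorem rho_inv_mul (σ : GQ) : ρbar.ρ σ⁻¹ * ρbar.ρ σ = 1 := by
  rw [← map_mul, inv_mul_cancel, map_one]

theorem rho_mul_inv (σ : GQ) : ρbar.ρ σ * ρbar.ρ σ⁻¹ = 1 := by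
  rw [← map_mul, mul_inv_cancel, map_one]

theorem trace_adEnd (σ : GQ) (m : Module.End k ρbar.V) :
    LinearMap.trace k ρbar.V (adEnd ρbar σ m) = LinearMap.trace k ρbar.V m := by
  rw [adEnd_apply, LinearMap.trace_mul_comm, ← mul_assoc, rho_inv_mul, one_mul]

theorem adEnd_one : adEnd ρbar 1 = LinearMap.id := by
  ext m : 1
  simp [adEnd_apply]

theorem adEnd_mul (σ τ : GQ) : adEnd ρbar (σ * τ) = adEnd ρbar σ ∘ₗ adEnd ρbar τ := by
  ext m : 1
  simp only [adEnd_apply, LinearMap.comp_apply, map_mul, mul_inv_rev, mul_assoc]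

/-- The adjoint representation on trace-zero endomorphisms. -/
def adRho : Representation k GQ (End0 ρbar) where
  toFun σ := (adEnd ρbar σ).restrict (p := End0 ρbar) (q := End0 ρbar)
    (fun m hm => mem_End0.2 (by rw [trace_adEnd]; exact mem_End0.1 hm))
  map_one' := by
    ext m : 2
    simp [adEnd_one]
  map_mul' σ τ := by
    ext m : 2
    simp [adEnd_mul]

/-- `ad⁰ρ̄` as an object of `Rep k G_ℚ`. -/
abbrev adRep : Rep.{0, 0, 0} k GQ := Rep.of (adRho ρbar)

/-- The underlying endomorphism of an element of `adRep`. -/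
def val : adRep ρbar →ₗ[k] Module.End k ρbar.V := (End0 ρbar).subtype

theorem val_injective : Function.Injective (val ρbar) := Subtype.val_injective

theorem trace_val (m : adRep ρbar) : LinearMap.trace k ρbar.V (val ρbar m) = 0 :=
  mem_End0.1 (m : End0 ρbar).2

/-- An endomorphism of trace zero, as an element of `adRep`. -/
def mk0 (m : Module.End k ρbar.V) (hm : LinearMap.trace k ρbar.V m = 0) : adRep ρbar :=
  (⟨m, mem_End0.2 hm⟩ : End0 ρbar)

@[simp] theorem val_mk0 (m : Module.End k ρbar.V) (hm : LinearMap.trace k ρbar.V m = 0) :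
    val ρbar (mk0 ρbar m hm) = m := rfl

theorem val_ρ (σ : GQ) (m : adRep ρbar) :
    val ρbar ((adRep ρbar).ρ σ m) = ρbar.ρ σ * val ρbar m * ρbar.ρ σ⁻¹ := rfl

/-- Post-composition with `val`: functions to `adRep` as functions to `End V`. -/
def toEnd : (GQ → adRep ρbar) →ₗ[k] (GQ → Module.End k ρbar.V) where
  toFun f σ := val ρbar (f σ)
  map_add' f g := by funext σ; exact (val ρbar).map_add (f σ) (g σ)
  map_smul' r f := by funext σ; exact (val ρbar).map_smul r (f σ)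

@[simp] theorem toEnd_apply (f : GQ → adRep ρbar) (σ : GQ) : toEnd ρbar f σ = val ρbar (f σ) := rfl

theorem toEnd_injective : Function.Injective (toEnd ρbar) := by
  intro f g h
  funext σ
  exact val_injective ρbar (congrFun h σ)

/-- A trace-zero valued function as a function to `adRep`. -/
def ofEnd (c : GQ → Module.End k ρbar.V) (hc : ∀ σ, LinearMap.trace k ρbar.V (c σ) = 0) :
    GQ → adRep ρbar := fun σ => mk0 ρbar (c σ) (hc σ)

@[simp] theorem toEnd_ofEnd (c : GQ → Module.End k ρbar.V)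
    (hc : ∀ σ, LinearMap.trace k ρbar.V (c σ) = 0) : toEnd ρbar (ofEnd ρbar c hc) = c := rfl

/-! ### Cocycles -/

theorem mem_cocycles₁_iff (f : GQ → adRep ρbar) :
    f ∈ cocycles₁ (adRep ρbar) ↔
      ∀ σ τ, toEnd ρbar f (σ * τ) = toEnd ρbar f σ + ρbar.ρ σ * toEnd ρbar f τ * ρbar.ρ σ⁻¹ := by
  rw [groupCohomology.mem_cocycles₁_iff]
  constructor
  · intro h σ τ
    have := congrArg (val ρbar) (h σ τ)
    rw [map_add, val_ρ] at this
    rw [toEnd_apply, this, add_comm]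
    rfl
  · intro h σ τ
    apply val_injective
    rw [map_add, val_ρ]
    have := h σ τ
    rw [toEnd_apply] at this
    rw [this, add_comm]
    rfl

theorem toEnd_one_of_cocycle {c : GQ → Module.End k ρbar.V}
    (h : ∀ σ τ, c (σ * τ) = c σ + ρbar.ρ σ * c τ * ρbar.ρ σ⁻¹) : c 1 = 0 := by
  have h1 := h 1 1
  rw [mul_one, inv_one, map_one, one_mul, mul_one] at h1
  exact left_eq_add.mp h1

/-- The right stabiliser of a function on `G_ℚ`. -/
def rightStab {X : Type*} (c : GQ → X) : Subgroup GQ where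
  carrier := {τ | ∀ σ, c (σ * τ) = c σ}
  one_mem' σ := by rw [mul_one]
  mul_mem' {a b} ha hb σ := by rw [← mul_assoc, hb, ha]
  inv_mem' {a} ha σ := by
    have := ha (σ * a⁻¹)
    rw [inv_mul_cancel_right] at this
    exact this.symm

theorem mem_rightStab {X : Type*} {c : GQ → X} {τ : GQ} :
    τ ∈ rightStab c ↔ ∀ σ, c (σ * τ) = c σ := Iff.rfl

/-- A cocycle is right-invariant under every element on which it vanishes. -/
theorem mem_rightStab_of_eq_zero {c : GQ → Module.End k ρbar.V}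
    (h : ∀ σ τ, c (σ * τ) = c σ + ρbar.ρ σ * c τ * ρbar.ρ σ⁻¹) {τ : GQ} (hτ : c τ = 0) :
    τ ∈ rightStab c := by
  intro σ
  rw [h, hτ, mul_zero, zero_mul, add_zero]

/-- **B4 (INFL).**  A function of finite level which is right-invariant under all inertia groups
outside `Σ` is level-constant for a finite extension unramified outside `Σ`. -/
theorem isLC₁_global_of_level (T : Finset Nat.Primes) {X : Type*} (c : GQ → X)
    (hlevel : ∃ L : IntermediateField ℚ Qb, FiniteDimensional ℚ L ∧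
      ∀ σ τ : GQ, (∀ x ∈ L, τ x = x) → c (σ * τ) = c σ)
    (hur : ∀ q : Nat.Primes, q ∉ T → ∀ P : ValuationSubring Qb, P.LiesOverPrime (q : ℕ) →
      ∀ τ ∈ P.inertiaSubgroupIn ℚ, ∀ σ, c (σ * τ) = c σ) :
    (globalLevels T).IsLC₁ c := by
  obtain ⟨L, hLfin, hL⟩ := hlevel
  obtain ⟨F, hF, hfix, -⟩ := Fermat.Agent.S55.Bridge.exists_level_of_subgroup T (rightStab c) L
    hLfin
    (fun τ hτ σ => hL σ τ (fun x hx => (IntermediateField.mem_fixingSubgroup_iff L τ).1 hτ x hx))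
    (fun q hq P hP τ hτ => hur q hq P hP τ hτ)
  refine ⟨F.fixingSubgroup, ⟨F, hF, rfl⟩, fun g s hs => ?_⟩
  rw [hfix] at hs
  exact hs g

/-- **B1 + B4.**  Level-constant cocycles of `adRep` for the levels unramified outside `Σ` are
exactly the plain ad⁰-cocycles of finite level which are unramified outside `Σ`. -/
theorem mem_Z1_global_iff (T : Finset Nat.Primes) (f : GQ → adRep ρbar) :
    f ∈ (globalLevels T).Z1 (adRep ρbar) ↔
      IsAdCocycle ρbar (toEnd ρbar f) ∧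
        ∀ q : Nat.Primes, q ∉ T → UnramAt ρbar (toEnd ρbar f) (q : ℕ) := by
  constructor
  · rintro ⟨hcoc, U, ⟨F, hF, rfl⟩, hU⟩
    have hmul := (mem_cocycles₁_iff ρbar f).1 hcoc
    refine ⟨⟨fun σ => trace_val ρbar (f σ), hmul, F, hF.1, fun σ τ hτ => ?_⟩, ?_⟩
    · rw [toEnd_apply, toEnd_apply, hU σ τ ((IntermediateField.mem_fixingSubgroup_iff F τ).2 hτ)]
    · intro q hq P hP σ hσ
      have h1 : f (1 * σ) = f 1 := hU 1 σ (hF.2 q hq P hP hσ)
      rw [one_mul] at h1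
      rw [toEnd_apply, h1, ← toEnd_apply, toEnd_one_of_cocycle ρbar hmul]
  · rintro ⟨hcoc, hur⟩
    refine ⟨(mem_cocycles₁_iff ρbar f).2 hcoc.map_mul, ?_⟩
    apply isLC₁_global_of_level
    · obtain ⟨L, hL, h⟩ := hcoc.level
      exact ⟨L, hL, fun σ τ hτ => toEnd_injective ρbar |> fun hinj =>
        val_injective ρbar (h σ τ hτ)⟩
    · intro q hq P hP τ hτ σ
      apply val_injective
      exact mem_rightStab_of_eq_zero ρbar hcoc.map_mul (hur q hq P hP τ hτ) σ

/-! ### Coboundaries -/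

/-- The trace-zero part `m - (tr m / 2) • 1` of an endomorphism (`2 ≠ 0`). -/
def tracelessPart (m : Module.End k ρbar.V) (h2 : (2 : k) ≠ 0) : adRep ρbar :=
  mk0 ρbar (m - (LinearMap.trace k ρbar.V m / 2) • (1 : Module.End k ρbar.V)) (by
    rw [map_sub, map_smul, LinearMap.trace_one, ρbar.finrank_eq, smul_eq_mul, Nat.cast_ofNat,
      div_mul_cancel₀ _ h2, sub_self])

theorem val_tracelessPart (m : Module.End k ρbar.V) (h2 : (2 : k) ≠ 0) :
    val ρbar (tracelessPart ρbar m h2)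
      = m - (LinearMap.trace k ρbar.V m / 2) • (1 : Module.End k ρbar.V) := rfl

/-- The coboundary of `m` equals the coboundary of its trace-zero part. -/
theorem coboundary_tracelessPart (m : Module.End k ρbar.V) (h2 : (2 : k) ≠ 0) (σ : GQ) :
    val ρbar ((adRep ρbar).ρ σ (tracelessPart ρbar m h2)) - val ρbar (tracelessPart ρbar m h2)
      = ρbar.ρ σ * m * ρbar.ρ σ⁻¹ - m := by
  rw [val_ρ, val_tracelessPart, mul_sub, sub_mul, mul_smul_comm, smul_mul_assoc, mul_one,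
    rho_mul_inv]
  abel

/-- Coboundaries on a subgroup, in terms of `adRep` (`2 ≠ 0`). -/
theorem isAdCoboundaryOn_iff (h2 : (2 : k) ≠ 0) (H : Subgroup GQ)
    (c : GQ → Module.End k ρbar.V) :
    IsAdCoboundaryOn ρbar H c ↔
      ∃ m₀ : adRep ρbar, ∀ σ ∈ H, c σ = val ρbar ((adRep ρbar).ρ σ m₀) - val ρbar m₀ := by
  constructor
  · rintro ⟨m, hm⟩
    exact ⟨tracelessPart ρbar m h2, fun σ hσ => by
      rw [coboundary_tracelessPart, hm σ hσ]⟩
  · rintro ⟨m₀, hm⟩
    exact ⟨val ρbar m₀, fun σ hσ => by rw [hm σ hσ, val_ρ]⟩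

theorem isAdCoboundary_iff_on_top (c : GQ → Module.End k ρbar.V) :
    IsAdCoboundary ρbar c ↔ IsAdCoboundaryOn ρbar ⊤ c :=
  ⟨fun ⟨m, hm⟩ => ⟨m, fun σ _ => hm σ⟩, fun ⟨m, hm⟩ => ⟨m, fun σ => hm σ (Subgroup.mem_top σ)⟩⟩

/-- **B1, coboundaries.**  `IsAdCoboundary (toEnd f) ↔ f ∈ B¹(adRep)`  (`2 ≠ 0`). -/
theorem isAdCoboundary_toEnd_iff (h2 : (2 : k) ≠ 0) (f : GQ → adRep ρbar) :
    IsAdCoboundary ρbar (toEnd ρbar f) ↔ f ∈ LevelSys.B1 (adRep ρbar) := by
  rw [isAdCoboundary_iff_on_top, isAdCoboundaryOn_iff ρbar h2]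
  constructor
  · rintro ⟨m₀, hm⟩
    refine ⟨m₀, ?_⟩
    funext σ
    apply val_injective
    have h1 := hm σ (Subgroup.mem_top σ)
    rw [toEnd_apply] at h1
    rw [h1, ← map_sub]
    rfl
  · rintro ⟨m₀, rfl⟩
    exact ⟨m₀, fun σ _ => by
      rw [toEnd_apply, ← map_sub]
      rfl⟩

/-! ### Invariants -/

/-- `adInv ρbar H` is the image of the `H`-invariants of `adRep`. -/
theorem mem_adInv_iff (H : Subgroup GQ) (m : Module.End k ρbar.V) :
    m ∈ adInv ρbar H ↔ ∃ m₀ : adRep ρbar, val ρbar m₀ = m ∧ ∀ σ ∈ H, (adRep ρbar).ρ σ m₀ = m₀ := by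
  constructor
  · rintro ⟨htr, hfix⟩
    refine ⟨mk0 ρbar m htr, rfl, fun σ hσ => ?_⟩
    apply val_injective
    rw [val_ρ, val_mk0, hfix σ hσ]
  · rintro ⟨m₀, rfl, hfix⟩
    refine ⟨trace_val ρbar m₀, fun σ hσ => ?_⟩
    rw [← val_ρ, hfix σ hσ]

/-! ### Independence of the place (conjugation) -/

open scoped Pointwise in
/-- For a cocycle, being a coboundary on the decomposition group of `P` or of `g • P` is the
same. -/
theorem isAdCoboundaryOn_smul {c : GQ → Module.End k ρbar.V}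
    (hc : ∀ σ τ, c (σ * τ) = c σ + ρbar.ρ σ * c τ * ρbar.ρ σ⁻¹)
    (P : ValuationSubring Qb) (g : GQ)
    (h : IsAdCoboundaryOn ρbar (P.decompositionSubgroup ℚ) c) :
    IsAdCoboundaryOn ρbar ((g • P).decompositionSubgroup ℚ) c := by
  obtain ⟨m, hm⟩ := h
  refine ⟨ρbar.ρ g * m * ρbar.ρ g⁻¹ - c g, fun σ' hσ' => ?_⟩
  -- `σ' = g σ g⁻¹` with `σ ∈ D_P`
  set σ : GQ := g⁻¹ * σ' * g with hσdef
  have hσ : σ ∈ P.decompositionSubgroup ℚ := by
    have h1 := Fermat.Agent.Lib.Cheb.H476.conj_mem_decomposition g⁻¹ hσ'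
    rw [inv_inv, inv_smul_smul] at h1
    exact h1
  have hσ' : σ' = g * σ * g⁻¹ := by rw [hσdef]; group
  have hg1 : c g⁻¹ = - (ρbar.ρ g⁻¹ * c g * ρbar.ρ g) := by
    have h1 := hc g⁻¹ g
    rw [inv_mul_cancel, toEnd_one_of_cocycle ρbar hc, inv_inv] at h1
    exact eq_neg_of_add_eq_zero_left h1.symm
  have e1 : ∀ x : Module.End k ρbar.V, ρbar.ρ g⁻¹ * (ρbar.ρ g * x) = x := fun x => by
    rw [← mul_assoc, rho_inv_mul, one_mul]
  rw [hσ', hc, hc, hm σ hσ, hg1]
  simp only [map_mul, mul_inv_rev, inv_inv, mul_sub, sub_mul, mul_neg, neg_mul, mul_assoc, e1]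
  abel

/-- For a cocycle, being a coboundary on the decomposition group does not depend on the place
over a given prime. -/
theorem isAdCoboundaryOn_of_liesOver {c : GQ → Module.End k ρbar.V}
    (hc : ∀ σ τ, c (σ * τ) = c σ + ρbar.ρ σ * c τ * ρbar.ρ σ⁻¹)
    {q : ℕ} (hq : q.Prime) {P P' : ValuationSubring Qb} (hP : P.LiesOverPrime q)
    (hP' : P'.LiesOverPrime q)
    (h : IsAdCoboundaryOn ρbar (P.decompositionSubgroup ℚ) c) :
    IsAdCoboundaryOn ρbar (P'.decompositionSubgroup ℚ) c := by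
  obtain ⟨g, rfl⟩ := Fermat.Agent.Lib.Cheb.H476.exists_smul_eq hq hP hP'
  exact isAdCoboundaryOn_smul ρbar hc P g h

/-! ### B3: the local groups of the Prelude -/

open ExtCitation in
/-- **B3, coboundaries.**  On the decomposition group of the Prelude's place over `v`, being a
coboundary is the same as being a coboundary after restriction to the Prelude's local Galois
group `Gl v`  (`2 ≠ 0`). -/
theorem isAdCoboundaryOn_primeLocalPlace_iff (h2 : (2 : k) ≠ 0) (v : Nat.Primes)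
    (f : GQ → adRep ρbar) :
    IsAdCoboundaryOn ρbar ((primeLocalPlace v).decompositionSubgroup ℚ) (toEnd ρbar f) ↔
      (f ∘ rl v : Gl v → adRep ρbar) ∈ LevelSys.B1 (Rep.res (rl v) (adRep ρbar)) := by
  rw [isAdCoboundaryOn_iff ρbar h2, ← Fermat.Agent.S55.Bridge.range_primeLocalToGlobal]
  constructor
  · rintro ⟨m₀, hm⟩
    refine ⟨m₀, ?_⟩
    funext τ
    apply val_injective
    have h1 := hm (rl v τ) ⟨τ, rfl⟩
    rw [toEnd_apply] at h1
    rw [Function.comp_apply, h1, ← map_sub]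
    rfl
  · rintro ⟨m₀, hm⟩
    refine ⟨m₀, ?_⟩
    rintro _ ⟨τ, rfl⟩
    have h1 := congrFun hm τ
    rw [Function.comp_apply] at h1
    rw [toEnd_apply, ← h1, ← map_sub]
    rfl

open ExtCitation in
/-- **B3, invariants.**  `H⁰(Gl v, ad⁰ρ̄)` is `adInv` of the decomposition group of the Prelude's
place over `v`. -/
def adInvLocalEquiv (v : Nat.Primes) :
    adInv ρbar ((primeLocalPlace v).decompositionSubgroup ℚ) ≃ₗ[k]
      LevelSys.H0 (Rep.res (rl v) (adRep ρbar)) where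
  toFun m := ⟨mk0 ρbar m.1 m.2.1, fun τ => by
    apply val_injective
    have hτ : rl v τ ∈ (primeLocalPlace v).decompositionSubgroup ℚ := by
      rw [← Fermat.Agent.S55.Bridge.range_primeLocalToGlobal]
      exact ⟨τ, rfl⟩
    exact m.2.2 (rl v τ) hτ⟩
  invFun m := ⟨val ρbar m.1, trace_val ρbar m.1, fun σ hσ => by
    rw [← Fermat.Agent.S55.Bridge.range_primeLocalToGlobal] at hσ
    obtain ⟨τ, rfl⟩ := hσ
    exact congrArg (val ρbar) (m.2 τ)⟩
  map_add' a b := rfl
  map_smul' r a := rfl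
  left_inv m := rfl
  right_inv m := rfl

/-! ### Sets of primes, strict Selmer cocycles -/

/-- A finite set of natural numbers as a finite set of primes (the non-primes are dropped). -/
def primesOf (T : Finset ℕ) : Finset Nat.Primes := T.subtype Nat.Prime

theorem mem_primesOf {T : Finset ℕ} {q : Nat.Primes} : q ∈ primesOf T ↔ (q : ℕ) ∈ T :=
  Finset.mem_subtype

theorem unram_outside_iff (T : Finset ℕ) (c : GQ → Module.End k ρbar.V) :
    (∀ q : ℕ, q.Prime → q ∉ T → UnramAt ρbar c q) ↔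
      ∀ q : Nat.Primes, q ∉ primesOf T → UnramAt ρbar c (q : ℕ) :=
  ⟨fun h q hq => h q q.2 (fun hq' => hq (mem_primesOf.2 hq')),
    fun h q hq hqT => h ⟨q, hq⟩ (fun hq' => hqT (mem_primesOf.1 hq'))⟩

/-- **B1 + B4**, `Finset ℕ` form. -/
theorem mem_Z1_primesOf_iff (T : Finset ℕ) (f : GQ → adRep ρbar) :
    f ∈ (globalLevels (primesOf T)).Z1 (adRep ρbar) ↔
      IsAdCocycle ρbar (toEnd ρbar f) ∧
        ∀ q : ℕ, q.Prime → q ∉ T → UnramAt ρbar (toEnd ρbar f) q := by
  rw [mem_Z1_global_iff, unram_outside_iff]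

open ExtCitation Fermat.Agent.S55.Bridge in
/-- The Prelude's place over `v` lies over `v`. -/
theorem primeLocalPlace_liesOver (v : Nat.Primes) :
    (primeLocalPlace v).LiesOverPrime (v : ℕ) := by
  letI : Fact (v : ℕ).Prime := ⟨v.2⟩
  show ((v : ℕ) : Qb) ∈ (padicPlace (v : ℕ)).nonunits
  rw [ValuationSubring.mem_nonunits_iff_exists_mem_maximalIdeal]
  have hq : (1 : ℝ) < (v : ℕ) := by exact_mod_cast v.2.one_lt
  have hmem : ((v : ℕ) : Qb) ∈ padicPlace (v : ℕ) := by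
    rw [mem_padicPlace_iff_norm, norm_padicEmbedding_natCast_self]
    exact inv_le_one_of_one_le₀ hq.le
  refine ⟨hmem, ?_⟩
  rw [IsLocalRing.mem_maximalIdeal, mem_nonunits_iff]
  rintro ⟨u, hu⟩
  have h1 : ((u⁻¹ : (padicPlace (v : ℕ))ˣ) : padicPlace (v : ℕ)) * u = 1 := by simp
  have h2 : (((u⁻¹ : (padicPlace (v : ℕ))ˣ) : padicPlace (v : ℕ)) : Qb) * ((v : ℕ) : Qb) = 1 := by
    have := congrArg (Subtype.val) h1
    rw [hu] at this
    simpa using this
  have h3 := ((u⁻¹ : (padicPlace (v : ℕ))ˣ) : padicPlace (v : ℕ)).2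
  rw [mem_padicPlace_iff_norm] at h3
  have h4 := congrArg (fun z => ‖padicEmbedding (v : ℕ) z‖) h2
  simp only [map_mul, norm_mul, map_one, norm_one] at h4
  rw [norm_padicEmbedding_natCast_self] at h4
  have hinv : ((v : ℕ) : ℝ)⁻¹ < 1 := inv_lt_one_of_one_lt₀ hq
  have hpos : (0 : ℝ) < ((v : ℕ) : ℝ)⁻¹ := by positivity
  nlinarith [norm_nonneg (padicEmbedding (v : ℕ)
    (((u⁻¹ : (padicPlace (v : ℕ))ˣ) : padicPlace (v : ℕ)) : Qb))]

open ExtCitation in
/-- **Strict Selmer cocycles** (`Λ = ⊥`) in `PT` vocabulary: level-constant cocycles for the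
levels unramified outside `Smin ∪ Q` whose restrictions to the Prelude's local groups `Gl v`,
`v ∈ Smin`, are coboundaries.  (`2 ≠ 0`; the places `Pl v` are arbitrary places over `v`.) -/
theorem isSelCocycle_bot_iff (h2 : (2 : k) ≠ 0) (Smin Q : Finset ℕ)
    (Pl : ℕ → ValuationSubring Qb) (hPl : ∀ v ∈ Smin, (Pl v).LiesOverPrime v)
    (hS : ∀ v ∈ Smin, v.Prime) (f : GQ → adRep ρbar) :
    IsSelCocycle ρbar Pl (fun _ => ⊥) Smin Q (toEnd ρbar f) ↔
      f ∈ (globalLevels (primesOf (Smin ∪ Q))).Z1 (adRep ρbar) ∧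
        ∀ v : Nat.Primes, (v : ℕ) ∈ Smin →
          (f ∘ rl v : Gl v → adRep ρbar) ∈ LevelSys.B1 (Rep.res (rl v) (adRep ρbar)) := by
  have hplace : ∀ v : Nat.Primes, (primeLocalPlace v).LiesOverPrime (v : ℕ) :=
    primeLocalPlace_liesOver
  rw [mem_Z1_primesOf_iff]
  constructor
  · intro h
    refine ⟨⟨h.cocycle, h.unram⟩, fun v hv => ?_⟩
    rw [← isAdCoboundaryOn_primeLocalPlace_iff ρbar h2]
    obtain ⟨t, ht, hcob⟩ := h.loc (v : ℕ) hv
    rw [(Submodule.mem_bot k).1 ht, sub_zero] at hcob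
    exact isAdCoboundaryOn_of_liesOver ρbar h.cocycle.map_mul v.2 (hPl _ hv) (hplace v) hcob
  · rintro ⟨⟨hcoc, hur⟩, hloc⟩
    refine ⟨hcoc, hur, fun v hv => ⟨0, Submodule.zero_mem _, ?_⟩⟩
    rw [sub_zero]
    have h1 := (isAdCoboundaryOn_primeLocalPlace_iff ρbar h2 ⟨v, hS v hv⟩ f).2
      (hloc ⟨v, hS v hv⟩ hv)
    exact isAdCoboundaryOn_of_liesOver ρbar hcoc.map_mul (hS v hv) (hplace ⟨v, hS v hv⟩)
      (hPl v hv) h1

end Fermat.Agent.S56.Br

end
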