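import Fermat.Agent.S55.PT.Setup

/-!
# Row S56 — BRIDGE (B5): restriction of scalars `k → F_p`                     (helper374)

The S55 `PT` layer computes with `F_p`-representations; the plain-function language of S56
lives over the residue field `k`.  An `F_p`-dimension only sees the additive group, so the
dictionary is organised around ADDITIVE equivariant bijections `B ≃+ A` between an
`F_p`-representation `B` and a `k`-representation `A` (`AEq p B A`):

* `finrank_eq_of_addEquiv` : `W' ≃+ W`, `W'` over `F_p`, `W` over `k` ⇒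
  `dim_{F_p} W' = [k : F_p] · dim_k W`  (`fpDeg k p = [k : F_p]`);
* `AEq.H1AddEquiv`, `AEq.sha1AddEquiv`, `AEq.H0AddEquiv` and the resulting
  `AEq.finrank_H1`, `AEq.finrank_Sha1`, `AEq.finrank_H0`, `AEq.finite_H1`;
* `resFp p A` : restriction of scalars of `A : Rep k G` to `F_p`, with `resFpAEq`.
-/

set_option autoImplicit false
set_option linter.style.haveILetI false
set_option linter.unusedSectionVars false

noncomputable section

namespace Fermat.Agent.S56.Br

open Fermat.Agent.S55.PT groupCohomology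

/-! ### `F_p`-structures on `k`-modules -/

section FpStruct

variable (k : Type) [Field k] (p : ℕ) [Fact p.Prime] [CharP k p]

/-- The `F_p`-module structure of a `k`-module. -/
@[reducible] def fpMod (W : Type*) [AddCommGroup W] [Module k W] : Module (ZMod p) W :=
  Module.compHom W (ZMod.castHom (dvd_refl p) k)

/-- The degree `[k : F_p]`. -/
def fpDeg : ℕ := @Module.finrank (ZMod p) k _ _ (fpMod k p k)

theorem finrank_fpMod (W : Type*) [AddCommGroup W] [Module k W] :
    @Module.finrank (ZMod p) W _ _ (fpMod k p W) = fpDeg k p * Module.finrank k W := by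
  letI := fpMod k p k
  letI := fpMod k p W
  haveI : IsScalarTower (ZMod p) k W := ⟨fun a r w => by
    show (ZMod.castHom (dvd_refl p) k a * r) • w = ZMod.castHom (dvd_refl p) k a • (r • w)
    rw [mul_smul]⟩
  exact (Module.finrank_mul_finrank (ZMod p) k W).symm

theorem fpDeg_pos [Finite k] : 0 < fpDeg k p := by
  letI := fpMod k p k
  haveI : Module.Finite (ZMod p) k := Module.Finite.of_finite
  exact Module.finrank_pos

variable {k}

/-- An `F_p`-dimension only sees the additive group. -/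
theorem finrank_eq_of_addEquiv {W W' : Type*} [AddCommGroup W] [Module k W] [AddCommGroup W']
    [Module (ZMod p) W'] (e : W' ≃+ W) :
    Module.finrank (ZMod p) W' = fpDeg k p * Module.finrank k W := by
  rw [← finrank_fpMod k p W]
  letI := fpMod k p W
  exact (LinearEquiv.ofBijective (e.toAddMonoidHom.toZModLinearMap p) e.bijective).finrank_eq

/-- Finiteness only sees the underlying set. -/
theorem moduleFinite_of_addEquiv [Finite k] {W W' : Type*} [AddCommGroup W] [Module k W]
    [AddCommGroup W'] [Module (ZMod p) W'] [Module.Finite (ZMod p) W'] (e : W' ≃+ W) :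
    Module.Finite k W := by
  haveI : Finite W' := Module.finite_of_finite (ZMod p)
  haveI : Finite W := Finite.of_equiv W' e.toEquiv
  exact Module.Finite.of_finite

end FpStruct

/-! ### Additive equivariant bijections -/

section AEqSec

variable {G : Type} [Group G] {k : Type} [Field k] (p : ℕ) [Fact p.Prime] [CharP k p]

/-- An additive equivariant bijection between an `F_p`-representation and a
`k`-representation. -/
structure AEq (B : Rep.{0, 0, 0} (ZMod p) G) (A : Rep.{0, 0, 0} k G) where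
  /-- the additive bijection -/
  e : B.V ≃+ A.V
  /-- equivariance -/
  he : ∀ (g : G) (b : B.V), e (B.ρ g b) = A.ρ g (e b)

namespace AEq

variable {p} {B : Rep.{0, 0, 0} (ZMod p) G} {A : Rep.{0, 0, 0} k G} (E : AEq p B A)

theorem he_symm (g : G) (a : A.V) : E.e.symm (A.ρ g a) = B.ρ g (E.e.symm a) := by
  apply E.e.injective
  rw [E.he, AddEquiv.apply_symm_apply, AddEquiv.apply_symm_apply]

/-- The same bijection, for the restrictions along `r : G' → G`. -/
def res {G' : Type} [Group G'] (r : G' →* G) : AEq p (Rep.res r B) (Rep.res r A) where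
  e := E.e
  he g b := E.he (r g) b

@[simp] theorem res_e {G' : Type} [Group G'] (r : G' →* G) (b : B.V) :
    (E.res r).e b = E.e b := rfl

/-- Post-composition with `e`. -/
def comp (f : G → B.V) : G → A.V := fun g => E.e (f g)

/-- Post-composition with `e⁻¹`. -/
def compSymm (f : G → A.V) : G → B.V := fun g => E.e.symm (f g)

@[simp] theorem comp_apply (f : G → B.V) (g : G) : E.comp f g = E.e (f g) := rfl
@[simp] theorem compSymm_apply (f : G → A.V) (g : G) : E.compSymm f g = E.e.symm (f g) := rfl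

@[simp] theorem comp_compSymm (f : G → A.V) : E.comp (E.compSymm f) = f := by
  funext g
  simp

@[simp] theorem compSymm_comp (f : G → B.V) : E.compSymm (E.comp f) = f := by
  funext g
  simp

theorem comp_add (f f' : G → B.V) : E.comp (f + f') = E.comp f + E.comp f' := by
  funext g
  simp

theorem comp_mem_cocycles₁ {f : G → B.V} (hf : f ∈ cocycles₁ B) : E.comp f ∈ cocycles₁ A := by
  rw [groupCohomology.mem_cocycles₁_iff] at hf ⊢
  intro g h
  simp only [comp_apply]
  rw [hf g h, map_add, E.he]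

theorem compSymm_mem_cocycles₁ {f : G → A.V} (hf : f ∈ cocycles₁ A) :
    E.compSymm f ∈ cocycles₁ B := by
  rw [groupCohomology.mem_cocycles₁_iff] at hf ⊢
  intro g h
  simp only [compSymm_apply]
  rw [hf g h, map_add, E.he_symm]

theorem comp_mem_B1 {f : G → B.V} (hf : f ∈ LevelSys.B1 B) : E.comp f ∈ LevelSys.B1 A := by
  obtain ⟨m, rfl⟩ := hf
  refine ⟨E.e m, ?_⟩
  funext g
  simp only [comp_apply, d₀₁_hom_apply]
  rw [map_sub, E.he]

theorem compSymm_mem_B1 {f : G → A.V} (hf : f ∈ LevelSys.B1 A) :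
    E.compSymm f ∈ LevelSys.B1 B := by
  obtain ⟨m, rfl⟩ := hf
  refine ⟨E.e.symm m, ?_⟩
  funext g
  simp only [compSymm_apply, d₀₁_hom_apply]
  rw [map_sub, E.he_symm]

theorem comp_mem_B1_iff (f : G → B.V) : E.comp f ∈ LevelSys.B1 A ↔ f ∈ LevelSys.B1 B :=
  ⟨fun h => by simpa using E.compSymm_mem_B1 h, E.comp_mem_B1⟩

variable (L : LevelSys G)

theorem comp_mem_Z1 {f : G → B.V} (hf : f ∈ L.Z1 B) : E.comp f ∈ L.Z1 A :=
  ⟨E.comp_mem_cocycles₁ hf.1, LevelSys.IsLC₁.comp hf.2 E.e⟩

theorem compSymm_mem_Z1 {f : G → A.V} (hf : f ∈ L.Z1 A) : E.compSymm f ∈ L.Z1 B :=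
  ⟨E.compSymm_mem_cocycles₁ hf.1, LevelSys.IsLC₁.comp hf.2 E.e.symm⟩

theorem comp_mem_Z1_iff (f : G → B.V) : E.comp f ∈ L.Z1 A ↔ f ∈ L.Z1 B :=
  ⟨fun h => by simpa using E.compSymm_mem_Z1 L h, E.comp_mem_Z1 L⟩

/-- The bijection on level-constant cocycles. -/
def Z1AddEquiv : ↥(L.Z1 B) ≃+ ↥(L.Z1 A) where
  toFun c := ⟨E.comp c.1, E.comp_mem_Z1 L c.2⟩
  invFun c := ⟨E.compSymm c.1, E.compSymm_mem_Z1 L c.2⟩
  left_inv c := Subtype.ext (E.compSymm_comp c.1)
  right_inv c := Subtype.ext (E.comp_compSymm c.1)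
  map_add' c c' := Subtype.ext (E.comp_add c.1 c'.1)

@[simp] theorem coe_Z1AddEquiv (c : ↥(L.Z1 B)) :
    ((E.Z1AddEquiv L c : ↥(L.Z1 A)) : G → A.V) = E.comp c.1 := rfl

/-- The bijection on `H¹`. -/
def H1AddEquiv : L.H1 B ≃+ L.H1 A :=
  letI := fpMod k p (L.H1 A)
  let ψ : ↥(L.Z1 B) →ₗ[ZMod p] L.H1 A :=
    ((L.H1π A).toAddMonoidHom.comp (E.Z1AddEquiv L).toAddMonoidHom).toZModLinearMap p
  have hψ : ∀ c, ψ c = L.H1π A (E.Z1AddEquiv L c) := fun _ => rfl
  let φ : L.H1 B →ₗ[ZMod p] L.H1 A :=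
    Submodule.liftQ ((LevelSys.B1 B).comap (L.Z1 B).subtype) ψ (by
      intro c hc
      rw [LinearMap.mem_ker, hψ, L.H1π_eq_zero_iff]
      exact E.comp_mem_B1 hc)
  have hφ : ∀ c, φ (L.H1π B c) = L.H1π A (E.Z1AddEquiv L c) := fun _ => rfl
  AddEquiv.ofBijective φ.toAddMonoidHom (by
    constructor
    · rw [injective_iff_map_eq_zero]
      intro x hx
      obtain ⟨c, rfl⟩ := L.H1π_surjective B x
      have h1 : L.H1π A (E.Z1AddEquiv L c) = 0 := hx
      rw [L.H1π_eq_zero_iff] at h1 ⊢
      exact (E.comp_mem_B1_iff c.1).1 h1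
    · intro y
      obtain ⟨c, rfl⟩ := L.H1π_surjective A y
      refine ⟨L.H1π B ((E.Z1AddEquiv L).symm c), ?_⟩
      show φ (L.H1π B ((E.Z1AddEquiv L).symm c)) = _
      rw [hφ, AddEquiv.apply_symm_apply])

@[simp] theorem H1AddEquiv_mk (c : ↥(L.Z1 B)) :
    E.H1AddEquiv L (L.H1π B c) = L.H1π A (E.Z1AddEquiv L c) := rfl

include E in
theorem finrank_H1 :
    Module.finrank (ZMod p) (L.H1 B) = fpDeg k p * Module.finrank k (L.H1 A) :=
  finrank_eq_of_addEquiv p (E.H1AddEquiv L)

include E in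
theorem finite_H1 [Finite k] [Module.Finite (ZMod p) (L.H1 B)] : Module.Finite k (L.H1 A) :=
  moduleFinite_of_addEquiv p (E.H1AddEquiv L)

/-! #### Invariants -/

/-- The bijection on invariants. -/
def H0AddEquiv : ↥(LevelSys.H0 B) ≃+ ↥(LevelSys.H0 A) where
  toFun b := ⟨E.e b.1, fun g => by rw [← E.he, b.2 g]⟩
  invFun a := ⟨E.e.symm a.1, fun g => by rw [← E.he_symm, a.2 g]⟩
  left_inv b := Subtype.ext (E.e.symm_apply_apply b.1)
  right_inv a := Subtype.ext (E.e.apply_symm_apply a.1)
  map_add' b b' := Subtype.ext (E.e.map_add b.1 b'.1)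

include E in
theorem finrank_H0 :
    Module.finrank (ZMod p) ↥(LevelSys.H0 B) = fpDeg k p * Module.finrank k ↥(LevelSys.H0 A) :=
  finrank_eq_of_addEquiv p E.H0AddEquiv

/-! #### `Ш¹` -/

section Sha

variable {ι : Type} [Fintype ι] [DecidableEq ι] {Gv : ι → Type} [∀ v, Group (Gv v)] {L}
  {Lv : ∀ v, LevelSys (Gv v)} {r : ∀ v, Gv v →* G}
  (hr : ∀ v, IsLevelCompatible (r v) L (Lv v))

/-- The class of `c` lies in `Ш¹` iff all local restrictions are coboundaries. -/
theorem _root_.Fermat.Agent.S56.Br.H1π_mem_Sha1_iff_gen {k₀ : Type} [Field k₀]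
    (M : Rep.{0, 0, 0} k₀ G) (c : ↥(L.Z1 M)) :
    L.H1π M c ∈ Sha1 hr M ↔
      ∀ v, ((c : G → M.V) ∘ r v : Gv v → M.V) ∈ LevelSys.B1 (Rep.res (r v) M) := by
  rw [LinearMap.mem_ker]
  constructor
  · intro h v
    have h1 := congrFun h v
    rw [loc1_apply, resH1_mk] at h1
    exact ((Lv v).H1π_eq_zero_iff _ _).1 h1
  · intro h
    funext v
    rw [loc1_apply, resH1_mk]
    exact ((Lv v).H1π_eq_zero_iff _ _).2 (h v)

theorem H1AddEquiv_mem_Sha1_iff (x : L.H1 B) :
    E.H1AddEquiv L x ∈ Sha1 hr A ↔ x ∈ Sha1 hr B := by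
  obtain ⟨c, rfl⟩ := L.H1π_surjective B x
  rw [H1AddEquiv_mk, H1π_mem_Sha1_iff_gen hr A, H1π_mem_Sha1_iff_gen hr B]
  refine forall_congr' fun v => ?_
  exact (E.res (r v)).comp_mem_B1_iff ((c : G → B.V) ∘ r v)

/-- The bijection on `Ш¹`. -/
def sha1AddEquiv : ↥(Sha1 hr B) ≃+ ↥(Sha1 hr A) where
  toFun x := ⟨E.H1AddEquiv L x.1, (E.H1AddEquiv_mem_Sha1_iff hr x.1).2 x.2⟩
  invFun y := ⟨(E.H1AddEquiv L).symm y.1, by
    rw [← E.H1AddEquiv_mem_Sha1_iff hr, AddEquiv.apply_symm_apply]
    exact y.2⟩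
  left_inv x := Subtype.ext ((E.H1AddEquiv L).symm_apply_apply x.1)
  right_inv y := Subtype.ext ((E.H1AddEquiv L).apply_symm_apply y.1)
  map_add' x x' := Subtype.ext ((E.H1AddEquiv L).map_add x.1 x'.1)

include E in
theorem finrank_Sha1 :
    Module.finrank (ZMod p) ↥(Sha1 hr B) = fpDeg k p * Module.finrank k ↥(Sha1 hr A) :=
  finrank_eq_of_addEquiv p (E.sha1AddEquiv hr)

end Sha

end AEq

/-! ### Restriction of scalars -/

/-- Restriction of scalars of a `k`-representation to `F_p`. -/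
def resFp (A : Rep.{0, 0, 0} k G) : Rep.{0, 0, 0} (ZMod p) G :=
  letI := fpMod k p A.V
  Rep.of (k := ZMod p) (G := G) (X := A.V)
    { toFun := fun g => (A.ρ g).toAddMonoidHom.toZModLinearMap p
      map_one' := by
        apply LinearMap.ext
        intro a
        show A.ρ 1 a = a
        rw [map_one, Module.End.one_apply]
      map_mul' := fun g h => by
        apply LinearMap.ext
        intro a
        show A.ρ (g * h) a = A.ρ g (A.ρ h a)
        rw [map_mul, Module.End.mul_apply] }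

/-- The identity, as an additive equivariant bijection `resFp p A ≃+ A`. -/
def resFpAEq (A : Rep.{0, 0, 0} k G) : AEq p (resFp p A) A where
  e := AddEquiv.refl A.V
  he _ _ := rfl

theorem resFp_ρ_apply (A : Rep.{0, 0, 0} k G) (g : G) (a : A.V) :
    (resFp p A).ρ g a = A.ρ g a := rfl

theorem finiteDimensional_resFp [Finite k] (A : Rep.{0, 0, 0} k G) [Module.Finite k A.V] :
    FiniteDimensional (ZMod p) (resFp p A) := by
  haveI : Finite A.V := Module.finite_of_finite k
  haveI : Finite (resFp p A).V := ‹Finite A.V›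
  exact Module.Finite.of_finite

end AEqSec

end Fermat.Agent.S56.Br

end
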