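import Fermat.Agent.S56.Br.H374.Ad
import Fermat.Agent.S55.Bridge.Cyclo

/-!
# Row S56 — BRIDGE (B1, B3, B4), twisted part: `ad⁰ρ̄(1)`                    (helper374)

`adTw ρbar p : Rep k G_ℚ` is `adRep ρbar` twisted by the mod `p` cyclotomic character
(`cycK k p : G_ℚ →* kˣ`, the Prelude's `cycloChar p` pushed to `k`).  The plain-function
language of layer 0 (`IsTwCocycle`, `IsTwCoboundary`, `LocTrivAt`, `IsDualFrame`, `Kills`)
is translated into the vocabulary of the S55 `PT` layer.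
-/

set_option autoImplicit false
set_option linter.style.haveILetI false
set_option linter.unusedSectionVars false

noncomputable section

namespace Fermat.Agent.S56.Br

open Fermat.Agent.S56 Fermat.Agent.S56.H716 Fermat.Agent.S55.PT groupCohomology ExtCitation

/-! ### The cyclotomic character with values in `k` -/

section Cyc

variable (k : Type) [Field k] (p : ℕ) [Fact p.Prime] [CharP k p]

/-- The mod `p` cyclotomic character with values in `kˣ`. -/
def cycK : GQ →* kˣ :=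
  (Units.map ((ZMod.castHom (dvd_refl p) k : ZMod p →+* k) : ZMod p →* k)).comp (cycloChar p)

theorem cycK_coe (σ : GQ) :
    ((cycK k p σ : kˣ) : k) = ZMod.castHom (dvd_refl p) k ((cycloChar p σ : (ZMod p)ˣ) : ZMod p) :=
  rfl

variable {p}

/-- The exponent `(cycloChar p σ).val` is a cyclotomic exponent of `σ`. -/
theorem isCycExp_val (σ : GQ) : IsCycExp p σ ((cycloChar p σ : (ZMod p)ˣ) : ZMod p).val := by
  intro μ hμ
  have hp : p.Prime := Fact.out
  by_cases h0 : μ = 0
  · subst h0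
    rw [zero_pow hp.ne_zero] at hμ
    exact absurd hμ zero_ne_one
  · have hmem : Units.mk0 μ h0 ∈ rootsOfUnity p Qb := by
      rw [mem_rootsOfUnity]
      apply Units.ext
      rw [Units.val_pow_eq_pow_val, Units.val_mk0, Units.val_one]
      exact hμ
    have := Fermat.Agent.S55.Bridge.cycloChar_spec p σ hmem
    rwa [Units.val_mk0] at this

/-- Any cyclotomic exponent of `σ` reduces to `cycloChar p σ`. -/
theorem natCast_eq_cycloChar {σ : GQ} {a : ℕ} (h : IsCycExp p σ a) :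
    (a : ZMod p) = ((cycloChar p σ : (ZMod p)ˣ) : ZMod p) := by
  have hp : p.Prime := Fact.out
  haveI : NeZero p := ⟨hp.ne_zero⟩
  obtain ⟨ζ, hζ⟩ := HasEnoughRootsOfUnity.exists_primitiveRoot Qb p
  have h1 := h ζ hζ.pow_eq_one
  have h2 := isCycExp_val (p := p) σ ζ hζ.pow_eq_one
  rw [h1] at h2
  have h4 : a ≡ ((cycloChar p σ : (ZMod p)ˣ) : ZMod p).val [MOD p] := by
    have := (hζ.isOfFinOrder hp.ne_zero).pow_eq_pow_iff_modEq.1 h2
    rwa [← hζ.eq_orderOf] at this
  have h5 := (ZMod.natCast_eq_natCast_iff a _ p).2 h4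
  rw [h5, ZMod.natCast_val, ZMod.cast_id]

theorem natCast_eq_cycK {σ : GQ} {a : ℕ} (h : IsCycExp p σ a) :
    (a : k) = ((cycK k p σ : kˣ) : k) := by
  rw [cycK_coe, ← natCast_eq_cycloChar h, map_natCast]

end Cyc

/-! ### Abstract: coboundaries on conjugate subgroups -/

section Abstract

variable {G : Type} [Group G] {k : Type} [CommRing k] (A : Rep.{0, 0, 0} k G)

/-- If a cocycle is the coboundary of `m` on `D`, it is the coboundary of `g m - f g` on
`g D g⁻¹`. -/
theorem coboundaryOn_conj {f : G → A} (hf : f ∈ cocycles₁ A) (D : Subgroup G) (g : G) (m : A)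
    (hm : ∀ σ ∈ D, f σ = A.ρ σ m - m) (σ : G) (hσ : σ ∈ D) :
    f (g * σ * g⁻¹) = A.ρ (g * σ * g⁻¹) (A.ρ g m - f g) - (A.ρ g m - f g) := by
  have hc := (groupCohomology.mem_cocycles₁_iff f).1 hf
  have h1 : f 1 = 0 := cocycles₁_map_one (⟨f, hf⟩ : cocycles₁ A)
  have hinv : f g⁻¹ = - A.ρ g⁻¹ (f g) := by
    have h2 := hc g⁻¹ g
    rw [inv_mul_cancel, h1] at h2
    exact eq_neg_of_add_eq_zero_right h2.symm
  have e1 : ∀ x : A, A.ρ g⁻¹ (A.ρ g x) = x := fun x => by
    rw [← Module.End.mul_apply, ← map_mul, inv_mul_cancel, map_one, Module.End.one_apply]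
  rw [hc, hc, hm σ hσ, hinv]
  simp only [map_mul, Module.End.mul_apply, map_sub, map_neg, e1]
  abel

end Abstract

/-! ### The twisted adjoint representation -/

variable {k : Type} [Field k] (ρbar : ResidualGaloisRep k) (p : ℕ) [Fact p.Prime] [CharP k p]

/-- `ad⁰ρ̄(1)` as an object of `Rep k G_ℚ`. -/
abbrev adTw : Rep.{0, 0, 0} k GQ := (adRep ρbar).twist (cycK k p)

/-- The underlying endomorphism of an element of `adTw`. -/
def valTw : adTw ρbar p →ₗ[k] Module.End k ρbar.V := (End0 ρbar).subtype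

theorem valTw_injective : Function.Injective (valTw ρbar p) := Subtype.val_injective

theorem trace_valTw (m : adTw ρbar p) : LinearMap.trace k ρbar.V (valTw ρbar p m) = 0 :=
  mem_End0.1 (m : End0 ρbar).2

/-- An endomorphism of trace zero, as an element of `adTw`. -/
def mkTw (m : Module.End k ρbar.V) (hm : LinearMap.trace k ρbar.V m = 0) : adTw ρbar p :=
  (⟨m, mem_End0.2 hm⟩ : End0 ρbar)

@[simp] theorem valTw_mkTw (m : Module.End k ρbar.V) (hm : LinearMap.trace k ρbar.V m = 0) :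
    valTw ρbar p (mkTw ρbar p m hm) = m := rfl

theorem valTw_ρ (σ : GQ) (m : adTw ρbar p) :
    valTw ρbar p ((adTw ρbar p).ρ σ m)
      = ((cycK k p σ : kˣ) : k) • (ρbar.ρ σ * valTw ρbar p m * ρbar.ρ σ⁻¹) := rfl

theorem valTw_ρ_of_isCycExp {σ : GQ} {a : ℕ} (h : IsCycExp p σ a) (m : adTw ρbar p) :
    valTw ρbar p ((adTw ρbar p).ρ σ m) = twAd ρbar σ a (valTw ρbar p m) := by
  rw [valTw_ρ, twAd, natCast_eq_cycK k h]

/-- Post-composition with `valTw`. -/
def toEndTw : (GQ → adTw ρbar p) →ₗ[k] (GQ → Module.End k ρbar.V) where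
  toFun f σ := valTw ρbar p (f σ)
  map_add' f g := by funext σ; exact (valTw ρbar p).map_add (f σ) (g σ)
  map_smul' r f := by funext σ; exact (valTw ρbar p).map_smul r (f σ)

@[simp] theorem toEndTw_apply (f : GQ → adTw ρbar p) (σ : GQ) :
    toEndTw ρbar p f σ = valTw ρbar p (f σ) := rfl

theorem toEndTw_injective : Function.Injective (toEndTw ρbar p) := by
  intro f g h
  funext σ
  exact valTw_injective ρbar p (congrFun h σ)

/-- A trace-zero valued function as a function to `adTw`. -/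
def ofEndTw (c : GQ → Module.End k ρbar.V) (hc : ∀ σ, LinearMap.trace k ρbar.V (c σ) = 0) :
    GQ → adTw ρbar p := fun σ => mkTw ρbar p (c σ) (hc σ)

@[simp] theorem toEndTw_ofEndTw (c : GQ → Module.End k ρbar.V)
    (hc : ∀ σ, LinearMap.trace k ρbar.V (c σ) = 0) :
    toEndTw ρbar p (ofEndTw ρbar p c hc) = c := rfl

/-! ### Cocycles -/

theorem mem_cocycles₁_tw_iff (f : GQ → adTw ρbar p) :
    f ∈ cocycles₁ (adTw ρbar p) ↔
      ∀ σ τ a, IsCycExp p σ a →
        toEndTw ρbar p f (σ * τ) = toEndTw ρbar p f σ + twAd ρbar σ a (toEndTw ρbar p f τ) := by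
  rw [groupCohomology.mem_cocycles₁_iff]
  constructor
  · intro h σ τ a ha
    have := congrArg (valTw ρbar p) (h σ τ)
    rw [map_add, valTw_ρ_of_isCycExp ρbar p ha] at this
    rw [toEndTw_apply, this, add_comm]
    rfl
  · intro h σ τ
    apply valTw_injective
    rw [map_add, valTw_ρ_of_isCycExp ρbar p (isCycExp_val σ)]
    have := h σ τ _ (isCycExp_val σ)
    rw [toEndTw_apply] at this
    rw [this, add_comm]
    rfl

theorem twCocycle_one {c : GQ → Module.End k ρbar.V}
    (h : ∀ σ τ a, IsCycExp p σ a → c (σ * τ) = c σ + twAd ρbar σ a (c τ)) : c 1 = 0 := by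
  have h1 := h 1 1 1 (fun μ _ => by rw [pow_one]; rfl)
  rw [mul_one, twAd, inv_one, map_one, one_mul, mul_one, Nat.cast_one, one_smul] at h1
  exact left_eq_add.mp h1

/-- **B1 + B4, twisted.**  Level-constant cocycles of `adTw` for the levels unramified outside
`T` are exactly the plain twisted cocycles of finite level which are unramified outside `T`. -/
theorem mem_Z1_global_tw_iff (T : Finset Nat.Primes) (f : GQ → adTw ρbar p) :
    f ∈ (globalLevels T).Z1 (adTw ρbar p) ↔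
      IsTwCocycle ρbar p (toEndTw ρbar p f) ∧
        ∀ q : Nat.Primes, q ∉ T → UnramAt ρbar (toEndTw ρbar p f) (q : ℕ) := by
  constructor
  · rintro ⟨hcoc, U, ⟨F, hF, rfl⟩, hU⟩
    have hmul := (mem_cocycles₁_tw_iff ρbar p f).1 hcoc
    refine ⟨⟨fun σ => trace_valTw ρbar p (f σ), hmul, F, hF.1, fun σ τ hτ => ?_⟩, ?_⟩
    · rw [toEndTw_apply, toEndTw_apply,
        hU σ τ ((IntermediateField.mem_fixingSubgroup_iff F τ).2 hτ)]
    · intro q hq P hP σ hσ
      have h1 : f (1 * σ) = f 1 := hU 1 σ (hF.2 q hq P hP hσ)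
      rw [one_mul] at h1
      rw [toEndTw_apply, h1, ← toEndTw_apply, twCocycle_one ρbar p hmul]
  · rintro ⟨hcoc, hur⟩
    refine ⟨(mem_cocycles₁_tw_iff ρbar p f).2 hcoc.map_mul, ?_⟩
    apply isLC₁_global_of_level
    · obtain ⟨L, hL, h⟩ := hcoc.level
      exact ⟨L, hL, fun σ τ hτ => valTw_injective ρbar p (h σ τ hτ)⟩
    · intro q hq P hP τ hτ σ
      apply valTw_injective
      have h0 : toEndTw ρbar p f τ = 0 := hur q hq P hP τ hτ
      have h1 := hcoc.map_mul σ τ _ (isCycExp_val σ)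
      rw [h0, twAd, mul_zero, zero_mul, smul_zero, add_zero] at h1
      exact h1

/-- **B1 + B4, twisted**, `Finset ℕ` form. -/
theorem mem_Z1_primesOf_tw_iff (T : Finset ℕ) (f : GQ → adTw ρbar p) :
    f ∈ (globalLevels (primesOf T)).Z1 (adTw ρbar p) ↔
      IsTwCocycle ρbar p (toEndTw ρbar p f) ∧
        ∀ q : ℕ, q.Prime → q ∉ T → UnramAt ρbar (toEndTw ρbar p f) q := by
  rw [mem_Z1_global_tw_iff, unram_outside_iff]

/-! ### Coboundaries -/

/-- Twisted coboundaries on a subgroup, in terms of `adTw`. -/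
theorem isTwCoboundaryOn_iff (H : Subgroup GQ) (c : GQ → Module.End k ρbar.V) :
    (∃ m, IsTwCoboundaryOn ρbar p H c m) ↔
      ∃ m₀ : adTw ρbar p, ∀ σ ∈ H,
        c σ = valTw ρbar p ((adTw ρbar p).ρ σ m₀) - valTw ρbar p m₀ := by
  constructor
  · rintro ⟨m, htr, hm⟩
    refine ⟨mkTw ρbar p m htr, fun σ hσ => ?_⟩
    rw [valTw_ρ_of_isCycExp ρbar p (isCycExp_val σ), valTw_mkTw]
    exact hm σ hσ _ (isCycExp_val σ)
  · rintro ⟨m₀, hm⟩
    refine ⟨valTw ρbar p m₀, trace_valTw ρbar p m₀, fun σ hσ a ha => ?_⟩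
    rw [hm σ hσ, valTw_ρ_of_isCycExp ρbar p ha]

/-- **B1, twisted coboundaries.** -/
theorem isTwCoboundary_toEndTw_iff (f : GQ → adTw ρbar p) :
    IsTwCoboundary ρbar p (toEndTw ρbar p f) ↔ f ∈ LevelSys.B1 (adTw ρbar p) := by
  unfold IsTwCoboundary
  rw [isTwCoboundaryOn_iff]
  constructor
  · rintro ⟨m₀, hm⟩
    refine ⟨m₀, ?_⟩
    funext σ
    apply valTw_injective
    have h1 := hm σ (Subgroup.mem_top σ)
    rw [toEndTw_apply] at h1
    rw [h1, ← map_sub]
    rfl
  · rintro ⟨m₀, rfl⟩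
    exact ⟨m₀, fun σ _ => by
      rw [toEndTw_apply, ← map_sub]
      rfl⟩

/-! ### B3, twisted: local triviality -/

open scoped Pointwise in
/-- **B3, twisted.**  `LocTrivAt` (a coboundary on SOME decomposition group over `v`) is the
vanishing of the restriction to the Prelude's local group `Gl v`. -/
theorem locTrivAt_iff (v : Nat.Primes) (f : GQ → adTw ρbar p)
    (hf : f ∈ cocycles₁ (adTw ρbar p)) :
    LocTrivAt ρbar p (v : ℕ) (toEndTw ρbar p f) ↔
      (f ∘ rl v : Gl v → adTw ρbar p) ∈ LevelSys.B1 (Rep.res (rl v) (adTw ρbar p)) := by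
  constructor
  · rintro ⟨P, hP, hm⟩
    obtain ⟨m₀, hm₀⟩ := (isTwCoboundaryOn_iff ρbar p _ _).1 hm
    obtain ⟨g, hg⟩ := Fermat.Agent.Lib.Cheb.H476.exists_smul_eq v.2 hP
      (primeLocalPlace_liesOver v)
    have hm₀' : ∀ σ ∈ P.decompositionSubgroup ℚ, f σ = (adTw ρbar p).ρ σ m₀ - m₀ := by
      intro σ hσ
      apply valTw_injective
      rw [map_sub]
      exact hm₀ σ hσ
    refine ⟨(adTw ρbar p).ρ g m₀ - f g, ?_⟩
    funext τ
    have hτ : rl v τ ∈ (primeLocalPlace v).decompositionSubgroup ℚ := by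
      rw [← Fermat.Agent.S55.Bridge.range_primeLocalToGlobal]
      exact ⟨τ, rfl⟩
    have hσ : g⁻¹ * rl v τ * g ∈ P.decompositionSubgroup ℚ := by
      rw [← hg] at hτ
      have h1 := Fermat.Agent.Lib.Cheb.H476.conj_mem_decomposition g⁻¹ hτ
      rw [inv_inv, inv_smul_smul] at h1
      exact h1
    have h2 := coboundaryOn_conj (adTw ρbar p) hf (P.decompositionSubgroup ℚ) g m₀ hm₀' _ hσ
    have e : g * (g⁻¹ * rl v τ * g) * g⁻¹ = rl v τ := by group
    rw [e] at h2
    rw [Function.comp_apply, h2]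
    rfl
  · rintro ⟨m₀, hm⟩
    refine ⟨primeLocalPlace v, primeLocalPlace_liesOver v, ?_⟩
    rw [isTwCoboundaryOn_iff]
    refine ⟨m₀, ?_⟩
    rw [← Fermat.Agent.S55.Bridge.range_primeLocalToGlobal]
    rintro _ ⟨τ, rfl⟩
    have h1 := congrFun hm τ
    rw [Function.comp_apply] at h1
    rw [toEndTw_apply, ← h1, ← map_sub]
    rfl

end Fermat.Agent.S56.Br

end
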