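import Fermat.Agent.S56.Br.H374.Fp
import Fermat.Agent.S56.Br.H374.Tw

/-!
# Row S56 — BRIDGE (B2): the trace form, `ad⁰ρ̄ ≅ (ad⁰ρ̄(1))′` over `F_p`          (helper374)

`N = resFp p (adTw ρbar p)` is `ad⁰ρ̄(1)` as an `F_p`-representation and `tdual p N = N′` its
Tate dual.  For an additive `lam : k → F_p` with `lam 1 ≠ 0` the map

    `θ : ad⁰ρ̄ → N′`,  `θ x = (m ↦ lam (tr (m x)))`

is an additive equivariant bijection (`2 ≠ 0`, `k` finite):  `tdualAEq : AEq p (tdual p N) (adRep)`;
local version `tdualLocAEq`.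
-/

set_option autoImplicit false
set_option linter.style.haveILetI false
set_option linter.unusedSectionVars false

noncomputable section

namespace Fermat.Agent.S56.Br

open Fermat.Agent.S56 Fermat.Agent.S56.H716 Fermat.Agent.S55.PT groupCohomology ExtCitation

variable {k : Type} [Field k] (ρbar : ResidualGaloisRep k)

/-! ### Nondegeneracy of the trace pairing on `End⁰ V` -/

/-- The trace pairing on the trace-zero endomorphisms of a plane is nondegenerate (`2 ≠ 0`). -/
theorem eq_zero_of_trace_mul_eq_zero (h2 : (2 : k) ≠ 0) (x : Module.End k ρbar.V)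
    (hx : LinearMap.trace k ρbar.V x = 0)
    (h : ∀ m : Module.End k ρbar.V, LinearMap.trace k ρbar.V m = 0 →
      LinearMap.trace k ρbar.V (m * x) = 0) : x = 0 := by
  -- the pairing with every endomorphism vanishes
  have hall : ∀ m : Module.End k ρbar.V, LinearMap.trace k ρbar.V (m * x) = 0 := by
    intro m
    have h1 := h (val ρbar (tracelessPart ρbar m h2)) (trace_val ρbar _)
    rw [val_tracelessPart, sub_mul, map_sub, smul_mul_assoc, one_mul, map_smul, hx, smul_zero,
      sub_zero] at h1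
    exact h1
  let b : Module.Basis (Fin 2) k ρbar.V := Module.finBasisOfFinrankEq k ρbar.V ρbar.finrank_eq
  apply (LinearMap.toMatrix b b).injective
  rw [map_zero]
  apply Matrix.ext_iff_trace_mul_left.2
  intro M
  rw [Matrix.mul_zero, Matrix.trace_zero]
  have h1 := hall (Matrix.toLin b b M)
  rw [LinearMap.trace_eq_matrix_trace k b, LinearMap.toMatrix_mul, LinearMap.toMatrix_toLin] at h1
  exact h1

variable (p : ℕ) [Fact p.Prime] [CharP k p]

/-- An additive map `k → F_p` which does not kill `1`. -/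
theorem exists_lam : ∃ lam : k →+ ZMod p, lam 1 ≠ 0 := by
  letI := fpMod k p k
  by_contra hcon
  push Not at hcon
  have h1 : ∀ φ : Module.Dual (ZMod p) k, φ 1 = 0 := fun φ => hcon φ.toAddMonoidHom
  exact one_ne_zero ((Module.forall_dual_apply_eq_zero_iff (ZMod p) (1 : k)).1 h1)

/-- `ad⁰ρ̄(1)` as an `F_p`-representation. -/
abbrev adTwFp : Rep.{0, 0, 0} (ZMod p) GQ := resFp p (adTw ρbar p)

/-- The underlying endomorphism of an element of `adTwFp`. -/
def valFp : (adTwFp ρbar p).V →+ Module.End k ρbar.V :=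
  (valTw ρbar p).toAddMonoidHom.comp (resFpAEq p (adTw ρbar p)).e.toAddMonoidHom

/-- A trace-zero endomorphism as an element of `adTwFp`. -/
def mkFp (m : Module.End k ρbar.V) (hm : LinearMap.trace k ρbar.V m = 0) : (adTwFp ρbar p).V :=
  (resFpAEq p (adTw ρbar p)).e.symm (mkTw ρbar p m hm)

@[simp] theorem valFp_mkFp (m : Module.End k ρbar.V) (hm : LinearMap.trace k ρbar.V m = 0) :
    valFp ρbar p (mkFp ρbar p m hm) = m := rfl

theorem valFp_injective : Function.Injective (valFp ρbar p) := fun a b h =>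
  (resFpAEq p (adTw ρbar p)).e.injective (valTw_injective ρbar p h)

theorem trace_valFp (m : (adTwFp ρbar p).V) : LinearMap.trace k ρbar.V (valFp ρbar p m) = 0 :=
  trace_valTw ρbar p _

theorem valFp_ρ (g : GQ) (m : (adTwFp ρbar p).V) :
    valFp ρbar p ((adTwFp ρbar p).ρ g m)
      = ((cycK k p g : kˣ) : k) • (ρbar.ρ g * valFp ρbar p m * ρbar.ρ g⁻¹) := rfl

variable {p} in
/-- The functional `m ↦ lam (tr (m x))` on `ad⁰ρ̄(1)`. -/
def trFun (lam : k →+ ZMod p) (x : Module.End k ρbar.V) :
    Module.Dual (ZMod p) (adTwFp ρbar p).V :=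
  (lam.comp ((LinearMap.trace k ρbar.V).toAddMonoidHom.comp
    ((AddMonoidHom.mulRight x).comp (valFp ρbar p)))).toZModLinearMap p

variable {p} in
theorem trFun_apply (lam : k →+ ZMod p) (x : Module.End k ρbar.V) (m : (adTwFp ρbar p).V) :
    trFun ρbar lam x m = lam (LinearMap.trace k ρbar.V (valFp ρbar p m * x)) := rfl

variable {p} in
/-- The trace form `θ : ad⁰ρ̄ → (ad⁰ρ̄(1))′`. -/
def theta (lam : k →+ ZMod p) : (adRep ρbar).V →+ (tdual p (adTwFp ρbar p)).V where
  toFun x := trFun ρbar lam (val ρbar x)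
  map_zero' := by
    apply LinearMap.ext
    intro m
    rw [trFun_apply, map_zero, mul_zero, map_zero, map_zero]
    rfl
  map_add' x y := by
    apply LinearMap.ext
    intro m
    rw [LinearMap.add_apply, trFun_apply, trFun_apply, trFun_apply, map_add, mul_add, map_add,
      map_add]

variable {p} in
theorem theta_apply (lam : k →+ ZMod p) (x : (adRep ρbar).V) (m : (adTwFp ρbar p).V) :
    (theta ρbar lam x : Module.Dual (ZMod p) (adTwFp ρbar p).V) m
      = lam (LinearMap.trace k ρbar.V (valFp ρbar p m * val ρbar x)) := rfl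

variable {p} in
theorem theta_injective (h2 : (2 : k) ≠ 0) (lam : k →+ ZMod p) (hlam : lam 1 ≠ 0) :
    Function.Injective (theta ρbar lam) := by
  rw [injective_iff_map_eq_zero]
  intro x hx
  apply val_injective
  rw [map_zero]
  apply eq_zero_of_trace_mul_eq_zero ρbar h2 _ (trace_val ρbar x)
  intro m hm
  by_contra hne
  -- scale `m` so that the pairing becomes `1`
  set t := LinearMap.trace k ρbar.V (m * val ρbar x) with ht
  have h0 := congrArg (fun φ : Module.Dual (ZMod p) (adTwFp ρbar p).V =>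
    φ (mkFp ρbar p (t⁻¹ • m) (by rw [map_smul, hm, smul_zero]))) hx
  have h1 : lam (LinearMap.trace k ρbar.V ((t⁻¹ • m) * val ρbar x)) = 0 := h0
  rw [smul_mul_assoc, map_smul, smul_eq_mul, ← ht, inv_mul_cancel₀ hne] at h1
  exact hlam h1

variable {p} in
theorem theta_bijective [Finite k] (h2 : (2 : k) ≠ 0) (lam : k →+ ZMod p) (hlam : lam 1 ≠ 0) :
    Function.Bijective (theta ρbar lam) := by
  haveI : Module.Finite k (adTw ρbar p).V := inferInstanceAs (Module.Finite k ↥(End0 ρbar))
  haveI : FiniteDimensional (ZMod p) (adTwFp ρbar p).V := finiteDimensional_resFp p _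
  -- `θ` as an `F_p`-linear map `N → N′` (same underlying additive group)
  let e0 : (adTwFp ρbar p).V ≃+ (adRep ρbar).V := (resFpAEq p (adTw ρbar p)).e
  let f : (adTwFp ρbar p).V →ₗ[ZMod p] Module.Dual (ZMod p) (adTwFp ρbar p).V :=
    ((theta ρbar lam).comp e0.toAddMonoidHom).toZModLinearMap p
  have hf : Function.Injective f := fun a b hab =>
    e0.injective (theta_injective ρbar h2 lam hlam hab)
  have hs : Function.Surjective f :=
    (LinearMap.injective_iff_surjective_of_finrank_eq_finrank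
      (Subspace.dual_finrank_eq (K := ZMod p) (V := (adTwFp ρbar p).V)).symm).1 hf
  refine ⟨theta_injective ρbar h2 lam hlam, fun y => ?_⟩
  obtain ⟨a, ha⟩ := hs y
  exact ⟨e0 a, ha⟩

variable {p} in
/-- Equivariance of the trace form. -/
theorem theta_equivariant (lam : k →+ ZMod p) (g : GQ) (x : (adRep ρbar).V) :
    theta ρbar lam ((adRep ρbar).ρ g x) = (tdual p (adTwFp ρbar p)).ρ g (theta ρbar lam x) := by
  apply LinearMap.ext
  intro m
  rw [Rep.dualTwist_ρ_apply, LinearMap.smul_apply, LinearMap.comp_apply, theta_apply,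
    theta_apply, val_ρ, valFp_ρ, inv_inv, smul_mul_assoc, map_smul]
  -- the trace identity
  have h3 : LinearMap.trace k ρbar.V (ρbar.ρ g⁻¹ * valFp ρbar p m * ρbar.ρ g * val ρbar x)
      = LinearMap.trace k ρbar.V (valFp ρbar p m * (ρbar.ρ g * val ρbar x * ρbar.ρ g⁻¹)) := by
    rw [mul_assoc, mul_assoc, LinearMap.trace_mul_comm]
    simp only [mul_assoc]
  rw [h3]
  -- the scalars cancel
  set t := LinearMap.trace k ρbar.V (valFp ρbar p m * (ρbar.ρ g * val ρbar x * ρbar.ρ g⁻¹))
  have h4 : ((cycK k p g⁻¹ : kˣ) : k) • t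
      = ((((cycloChar p g)⁻¹ : (ZMod p)ˣ) : ZMod p).val : ℕ) • t := by
    rw [cycK_coe, map_inv, nsmul_eq_mul, ZMod.natCast_val, smul_eq_mul, ZMod.castHom_apply]
  rw [h4, map_nsmul, smul_eq_mul, nsmul_eq_mul, ZMod.natCast_val, ZMod.cast_id, ← mul_assoc,
    ← Units.val_mul, mul_inv_cancel, Units.val_one, one_mul]

/-- **B2.**  The trace form as an additive equivariant bijection `(ad⁰ρ̄(1))′ ≃+ ad⁰ρ̄`. -/
def tdualAEq [Finite k] (h2 : (2 : k) ≠ 0) : AEq p (tdual p (adTwFp ρbar p)) (adRep ρbar) :=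
  let lam := (exists_lam (k := k) p).choose
  have hlam : lam 1 ≠ 0 := (exists_lam (k := k) p).choose_spec
  let e := AddEquiv.ofBijective (theta ρbar lam) (theta_bijective ρbar h2 lam hlam)
  { e := e.symm
    he := fun g φ => by
      apply e.injective
      rw [AddEquiv.apply_symm_apply]
      show _ = theta ρbar lam _
      rw [theta_equivariant]
      congr 1
      exact (e.apply_symm_apply φ).symm }

/-- **B2, local.**  The same bijection for the local Tate dual at `v`. -/
def tdualLocAEq [Finite k] (h2 : (2 : k) ≠ 0) (v : Nat.Primes) :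
    AEq p ((Rep.res (rl v) (adTwFp ρbar p)).dualTwist (cycloLoc p v))
      (Rep.res (rl v) (adRep ρbar)) where
  e := (tdualAEq ρbar p h2).e
  he g φ := by
    have h1 : ((Rep.res (rl v) (adTwFp ρbar p)).dualTwist (cycloLoc p v)).ρ g φ
        = (tdual p (adTwFp ρbar p)).ρ (rl v g) φ := by
      have h0 : (Rep.res (rl v) (adTwFp ρbar p)).ρ g⁻¹ = (adTwFp ρbar p).ρ (rl v g)⁻¹ := by
        rw [← map_inv]
        rfl
      rw [Rep.dualTwist_ρ_apply, Rep.dualTwist_ρ_apply, h0]
      rfl
    rw [h1]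
    exact (tdualAEq ρbar p h2).he (rl v g) φ

end Fermat.Agent.S56.Br

end
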